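/-
S18 / wave 4 (helper30): generic algebra used by the two-chart (Cech) torsion cores
(#1088 Theorem K (c), #1138 hypotheses (bdd)/(const)).  Mathlib only.

* `cech_bounded_torsion`: if `Q ≤ P + span (finite set)` over a noetherian ring `A₀`, then the
  `π`-power torsion of `Q / (P ∩ Q)` is bounded.
* `cech_fg_two_chart`: the standard finite generation of `M₁₂ / (M₁ + M₂)` for a module `M₁`
  finitely generated over `A₀[j]`, `M₂` over `A₀[1/j]` and `M₁₂ = ⋃ j⁻ᵗ M₁`.
* `cech_isIntegral_of_two_charts`: an element of a field which is integral over `A₀[j]` and over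
  `A₀[1/j]` is integral over `A₀` ("global functions on the two charts are constants").
-/
import Mathlib

set_option autoImplicit false

namespace Fermat.Agent.S18.H30

section Bounded

variable {A₀ M : Type*} [CommRing A₀] [IsNoetherianRing A₀] [AddCommGroup M] [Module A₀ M]

/-- Bounded `π`-power torsion modulo `P` for a module `Q` which is finitely generated modulo `P`
over a noetherian ring. -/
theorem cech_bounded_torsion (π : A₀) (P Q : Submodule A₀ M) (S : Finset M)
    (hfg : Q ≤ P ⊔ Submodule.span A₀ (S : Set M)) :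
    ∃ c : ℕ, ∀ (n : ℕ) (y : M), y ∈ Q → π ^ n • y ∈ P → π ^ c • y ∈ P := by
  classical
  let φ : (S → A₀) →ₗ[A₀] M := Fintype.linearCombination A₀ (fun s : S => (s : M))
  have hmono : Monotone fun n : ℕ => P.comap ((π ^ n) • φ) := by
    refine monotone_nat_of_le_succ fun n a ha => ?_
    simp only [Submodule.mem_comap, LinearMap.smul_apply] at ha ⊢
    rw [pow_succ', mul_smul]
    exact P.smul_mem π ha
  obtain ⟨c, hc⟩ := monotone_stabilizes_iff_noetherian.mpr
    (inferInstance : IsNoetherian A₀ (S → A₀)) ⟨_, hmono⟩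
  refine ⟨c, fun n y hy hn => ?_⟩
  obtain ⟨p, hp, z, hz, rfl⟩ := Submodule.mem_sup.mp (hfg hy)
  obtain ⟨a, rfl⟩ := Submodule.mem_span_finset'.mp hz
  have hφ : φ a = ∑ s : S, a s • (s : M) := Fintype.linearCombination_apply A₀ _ a
  rw [← hφ] at hn ⊢
  have hn' : a ∈ P.comap ((π ^ n) • φ) := by
    simp only [Submodule.mem_comap, LinearMap.smul_apply]
    have h0 : π ^ n • φ a = π ^ n • (p + φ a) - π ^ n • p := by
      rw [smul_add]; abel
    rw [h0]
    exact P.sub_mem hn (P.smul_mem _ hp)
  have hc' : a ∈ P.comap ((π ^ c) • φ) := by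
    rcases le_total n c with hnc | hcn
    · exact hmono hnc hn'
    · have := hc n hcn
      simp only [OrderHom.coe_mk] at this
      rw [this]
      exact hn'
  simp only [Submodule.mem_comap, LinearMap.smul_apply] at hc'
  rw [smul_add]
  exact P.add_mem (P.smul_mem _ hp) hc'

end Bounded

section FG

variable {A₀ R : Type*} [CommRing A₀] [CommRing R] [Algebra A₀ R]

/-- Finite generation of `M₁₂ / (M₁ + M₂)` on the two standard charts: `M₁` is generated over
`A₀[j]` by the finite set `T`, each generator lies in `jᵗ M₂` for `t` large, and every element of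
`M₁₂` is moved into `M₁` by a power of `j`. -/
theorem cech_fg_two_chart (j j' : R) (hjj' : j * j' = 1) (M₁ M₂ M₁₂ : Submodule A₀ R)
    (T : Finset R)
    (h₁ : ∀ y ∈ M₁, y ∈ Submodule.span A₀ {z : R | ∃ (s : ℕ) (μ : R), μ ∈ T ∧ z = j ^ s * μ})
    (h₁' : ∀ μ ∈ T, ∀ s : ℕ, j ^ s * μ ∈ M₁)
    (h₂ : ∀ μ ∈ T, ∃ N : ℕ, ∀ t : ℕ, N ≤ t → j' ^ t * μ ∈ M₂)
    (h₁₂ : ∀ y ∈ M₁₂, ∃ t : ℕ, j ^ t * y ∈ M₁) :
    ∃ S : Finset R, M₁₂ ≤ (M₁ ⊔ M₂) ⊔ Submodule.span A₀ (S : Set R) := by
  classical
  choose! Nf hNf using h₂
  let S : Finset R := T.biUnion fun μ => (Finset.range (Nf μ)).image fun t => j' ^ t * μ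
  refine ⟨S, fun y hy => ?_⟩
  obtain ⟨t, ht⟩ := h₁₂ y hy
  have hy' : y = j' ^ t * (j ^ t * y) := by
    rw [← mul_assoc, ← mul_pow, mul_comm j' j, hjj', one_pow, one_mul]
  rw [hy']
  -- the multiplication-by-`j' ^ t` map sends the span of the `j ^ s * μ` into the target
  have key : ∀ z ∈ Submodule.span A₀ {z : R | ∃ (s : ℕ) (μ : R), μ ∈ T ∧ z = j ^ s * μ},
      j' ^ t * z ∈ (M₁ ⊔ M₂) ⊔ Submodule.span A₀ (S : Set R) := by
    intro z hz
    induction hz using Submodule.span_induction with
    | mem z hz =>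
      obtain ⟨s, μ, hμ, rfl⟩ := hz
      rcases le_total t s with hts | hst
      · -- `j' ^ t * (j ^ s * μ) = j ^ (s - t) * μ ∈ M₁`
        have h0 : j' ^ t * (j ^ s * μ) = j ^ (s - t) * μ := by
          obtain ⟨d, rfl⟩ := Nat.exists_eq_add_of_le hts
          rw [Nat.add_sub_cancel_left, pow_add, ← mul_assoc, ← mul_assoc, ← mul_pow,
            mul_comm j' j, hjj', one_pow, one_mul]
        rw [h0]
        exact Submodule.mem_sup_left (Submodule.mem_sup_left (h₁' μ hμ _))
      · -- `j' ^ t * (j ^ s * μ) = j' ^ (t - s) * μ`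
        have h0 : j' ^ t * (j ^ s * μ) = j' ^ (t - s) * μ := by
          obtain ⟨d, rfl⟩ := Nat.exists_eq_add_of_le hst
          rw [Nat.add_sub_cancel_left, pow_add, mul_comm (j' ^ s) (j' ^ d), mul_assoc,
            ← mul_assoc (j' ^ s), ← mul_pow, mul_comm j' j, hjj', one_pow, one_mul]
        rw [h0]
        rcases le_or_gt (Nf μ) (t - s) with hN | hN
        · exact Submodule.mem_sup_left (Submodule.mem_sup_right (hNf μ hμ _ hN))
        · refine Submodule.mem_sup_right (Submodule.subset_span ?_)
          simp only [S, Finset.coe_biUnion, Finset.coe_image, Finset.coe_range, Set.mem_iUnion,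
            Set.mem_image, Set.mem_Iio, Finset.mem_coe, exists_prop]
          exact ⟨μ, hμ, t - s, hN, rfl⟩
    | zero => rw [mul_zero]; exact Submodule.zero_mem _
    | add u v _ _ hu hv => rw [mul_add]; exact Submodule.add_mem _ hu hv
    | smul a u _ hu =>
      rw [mul_smul_comm]
      exact Submodule.smul_mem _ a hu
  exact key _ (h₁ _ ht)

end FG

section Constants

variable {E : Type*} [Field E]

/-- **Global functions are constants.**  An element of a field `E` which is integral over the
subring generated by `s ∪ {j}` and over the subring generated by `s ∪ {j⁻¹}` is integral over the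
subring generated by `s`. -/
theorem cech_isIntegral_of_two_charts (s : Set E) (j G : E)
    (h₁ : IsIntegral (Subring.closure (insert j s)) G)
    (h₂ : IsIntegral (Subring.closure (insert j⁻¹ s)) G) :
    IsIntegral (Subring.closure s) G := by
  have hmem : G ∈ (⨅ V : {V : ValuationSubring E // s ⊆ V.toSubring}, V.1.toSubring) := by
    rw [Subring.mem_iInf]
    rintro ⟨V, hV⟩
    rcases V.mem_or_inv_mem j with hj | hj
    · have hsub : insert j s ⊆ (V.toSubring : Set E) := Set.insert_subset hj hV
      have h := iInf_valuationSubring_superset (K := E) (s := insert j s)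
      have hG : G ∈ (integralClosure (Subring.closure (insert j s)) E).toSubring := h₁
      rw [← h, Subring.mem_iInf] at hG
      exact hG ⟨V, hsub⟩
    · have hsub : insert j⁻¹ s ⊆ (V.toSubring : Set E) := Set.insert_subset hj hV
      have h := iInf_valuationSubring_superset (K := E) (s := insert j⁻¹ s)
      have hG : G ∈ (integralClosure (Subring.closure (insert j⁻¹ s)) E).toSubring := h₂
      rw [← h, Subring.mem_iInf] at hG
      exact hG ⟨V, hsub⟩
  rw [iInf_valuationSubring_superset] at hmem
  exact hmem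

end Constants

end Fermat.Agent.S18.H30
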