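/-
S18 / wave 4 (helper30): the ABSTRACT two-chart idempotent lemma ("Cech step" of report #1088,
Theorem K (c)).  Pure commutative algebra, Mathlib only.

`R` is a commutative ring (think `B₁₂`, the ring of the overlap of two charts), `π ∈ R`,
`B₁ B₂ ≤ R` subrings containing `π` (the rings of the two charts), and `c` a bound for the
`π`-power torsion of `R / (B₁ + B₂)`.  If `e₁ ∈ B₁`, `e₂ ∈ B₂` are idempotent modulo `π` (inside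
`B₁`, resp. `B₂`) and agree modulo `π` in `R`, then there is a GLOBAL element `G ∈ B₁ ∩ B₂`
congruent to `e₁` modulo `π B₁` and to `e₂` modulo `π B₂`.
-/
import Mathlib

set_option autoImplicit false

namespace Fermat.Agent.S18.H30

section

variable {R : Type*} [CommRing R]

/-- One Newton step `x ↦ 3x² - 2x³` doubles the precision of an approximate idempotent. -/
theorem cech_idem_step (π x a : R) (n : ℕ) (h : x ^ 2 - x = π ^ n * a) :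
    (3 * x ^ 2 - 2 * x ^ 3) ^ 2 - (3 * x ^ 2 - 2 * x ^ 3)
      = π ^ (2 * n) * (a ^ 2 * (4 * x ^ 2 - 4 * x - 3)) := by
  have h1 : (3 * x ^ 2 - 2 * x ^ 3) ^ 2 - (3 * x ^ 2 - 2 * x ^ 3)
      = (x ^ 2 - x) ^ 2 * (4 * x ^ 2 - 4 * x - 3) := by ring
  rw [h1, h]
  ring

theorem cech_three_mem (B : Subring R) : (3 : R) ∈ B := ofNat_mem B 3

theorem cech_two_mem (B : Subring R) : (2 : R) ∈ B := ofNat_mem B 2

theorem cech_four_mem (B : Subring R) : (4 : R) ∈ B := ofNat_mem B 4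

/-- Lifting an idempotent modulo `π` to an idempotent modulo `π ^ (n+1)`, staying inside the
subring `B` and inside the class of `e` modulo `π B`. -/
theorem cech_exists_lift_idem (π : R) (B : Subring R) (hπ : π ∈ B) (e : R) (he : e ∈ B)
    (h : ∃ a ∈ B, e ^ 2 - e = π * a) (n : ℕ) :
    ∃ x ∈ B, (∃ a ∈ B, x - e = π * a) ∧ ∃ a ∈ B, x ^ 2 - x = π ^ (n + 1) * a := by
  induction n with
  | zero =>
    obtain ⟨a, ha, h⟩ := h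
    exact ⟨e, he, ⟨0, B.zero_mem, by ring⟩, a, ha, by simpa using h⟩
  | succ n ih =>
    obtain ⟨x, hx, ⟨a, ha, hxa⟩, a', ha', hxa'⟩ := ih
    have h2 := cech_two_mem B
    have h3 := cech_three_mem B
    have h4 := cech_four_mem B
    have hx2 : x ^ 2 ∈ B := B.pow_mem hx 2
    have hx3 : x ^ 3 ∈ B := B.pow_mem hx 3
    refine ⟨3 * x ^ 2 - 2 * x ^ 3, B.sub_mem (B.mul_mem h3 hx2) (B.mul_mem h2 hx3),
      ⟨a + π ^ n * a' * (1 - 2 * x), ?_, ?_⟩,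
      π ^ n * (a' ^ 2 * (4 * x ^ 2 - 4 * x - 3)), ?_, ?_⟩
    · exact B.add_mem ha (B.mul_mem (B.mul_mem (B.pow_mem hπ n) ha')
        (B.sub_mem B.one_mem (B.mul_mem h2 hx)))
    · have h1 : 3 * x ^ 2 - 2 * x ^ 3 - e = (x - e) + (x ^ 2 - x) * (1 - 2 * x) := by ring
      rw [h1, hxa, hxa']
      ring
    · exact B.mul_mem (B.pow_mem hπ n) (B.mul_mem (B.pow_mem ha' 2)
        (B.sub_mem (B.sub_mem (B.mul_mem h4 hx2) (B.mul_mem h4 hx)) h3))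
    · rw [cech_idem_step π x a' (n + 1) hxa']
      have hp : π ^ (2 * (n + 1)) = π ^ (n + 1 + 1) * π ^ n := by
        rw [← pow_add]
        congr 1
        omega
      rw [hp]
      ring

/-- If `d ^ 3 - d` is divisible by `π ^ (c+1)` and `d` is divisible by `π`, then `d` is divisible
by `π ^ (c+1)` (`1 - d ^ 2` is invertible modulo `π ^ (c+1)`). -/
theorem cech_of_cube (π d w y : R) (c : ℕ) (hcube : d ^ 3 - d = π ^ (c + 1) * w)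
    (hy : d = π * y) : ∃ z : R, d = π ^ (c + 1) * z := by
  have hgeom : (d ^ 2 - 1) * ∑ i ∈ Finset.range (c + 1), (d ^ 2) ^ i = (d ^ 2) ^ (c + 1) - 1 :=
    mul_geom_sum (d ^ 2) (c + 1)
  generalize (∑ i ∈ Finset.range (c + 1), (d ^ 2) ^ i) = S at hgeom
  have hpow2 : d ^ (2 * c + 3) = d * (d ^ 2) ^ (c + 1) := by
    rw [← pow_mul, ← pow_succ']
    congr 1
  have hkey : d = d ^ (2 * c + 3) - (d ^ 3 - d) * S := by
    rw [hpow2]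
    linear_combination d * hgeom
  have hpow : d ^ (2 * c + 3) = π ^ (c + 1) * (π ^ (c + 2) * y ^ (2 * c + 3)) := by
    rw [hy, mul_pow, ← mul_assoc, ← pow_add]
    congr 2
    omega
  refine ⟨π ^ (c + 2) * y ^ (2 * c + 3) - w * S, ?_⟩
  calc d = d ^ (2 * c + 3) - (d ^ 3 - d) * S := hkey
    _ = π ^ (c + 1) * (π ^ (c + 2) * y ^ (2 * c + 3) - w * S) := by
      rw [hpow, hcube]
      ring

/-- Two approximate idempotents modulo `π ^ (c+1)` which agree modulo `π` agree modulo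
`π ^ (c+1)`. -/
theorem cech_sub_mem_pow (π x₁ x₂ a₁ a₂ y : R) (c : ℕ)
    (h₁ : x₁ ^ 2 - x₁ = π ^ (c + 1) * a₁) (h₂ : x₂ ^ 2 - x₂ = π ^ (c + 1) * a₂)
    (hy : x₁ - x₂ = π * y) :
    ∃ z : R, x₁ - x₂ = π ^ (c + 1) * z := by
  refine cech_of_cube π (x₁ - x₂) ((x₁ + 1 - 3 * x₂) * a₁ - (x₂ + 1 - 3 * x₁) * a₂) y c ?_ hy
  have h0 : (x₁ - x₂) ^ 3 - (x₁ - x₂)
      = (x₁ + 1 - 3 * x₂) * (x₁ ^ 2 - x₁) - (x₂ + 1 - 3 * x₁) * (x₂ ^ 2 - x₂) := by ring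
  rw [h0, h₁, h₂]
  ring

/-- **Abstract Cech lemma.**  `B₁, B₂` subrings of `R` containing `π`; `c` bounds the `π`-power
torsion of `R / (B₁ + B₂)`.  Idempotents modulo `π` of `B₁` and `B₂` which agree modulo `π R`
are the reductions of a common element of `B₁ ∩ B₂`. -/
theorem cech_exists_global (π : R) (B₁ B₂ : Subring R) (hπ₁ : π ∈ B₁) (hπ₂ : π ∈ B₂) (c : ℕ)
    (hc : ∀ (n : ℕ) (y : R), (∃ b₁ ∈ B₁, ∃ b₂ ∈ B₂, π ^ n * y = b₁ + b₂) →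
      ∃ b₁ ∈ B₁, ∃ b₂ ∈ B₂, π ^ c * y = b₁ + b₂)
    (e₁ e₂ : R) (he₁ : e₁ ∈ B₁) (he₂ : e₂ ∈ B₂)
    (h₁ : ∃ a ∈ B₁, e₁ ^ 2 - e₁ = π * a) (h₂ : ∃ a ∈ B₂, e₂ ^ 2 - e₂ = π * a)
    (h₁₂ : ∃ y : R, e₁ - e₂ = π * y) :
    ∃ G ∈ B₁, G ∈ B₂ ∧ (∃ a ∈ B₁, G - e₁ = π * a) ∧ ∃ a ∈ B₂, G - e₂ = π * a := by
  obtain ⟨x₁, hx₁, ⟨a₁, ha₁, hxa₁⟩, a₁', -, hx₁'⟩ := cech_exists_lift_idem π B₁ hπ₁ e₁ he₁ h₁ c
  obtain ⟨x₂, hx₂, ⟨a₂, ha₂, hxa₂⟩, a₂', -, hx₂'⟩ := cech_exists_lift_idem π B₂ hπ₂ e₂ he₂ h₂ c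
  obtain ⟨y₀, hy₀⟩ := h₁₂
  have hy : x₁ - x₂ = π * (a₁ - a₂ + y₀) := by
    have h0 : x₁ - x₂ = (x₁ - e₁) - (x₂ - e₂) + (e₁ - e₂) := by ring
    rw [h0, hxa₁, hxa₂, hy₀]
    ring
  obtain ⟨z, hz⟩ := cech_sub_mem_pow π x₁ x₂ a₁' a₂' _ c hx₁' hx₂' hy
  obtain ⟨b₁, hb₁, b₂, hb₂, hb⟩ :=
    hc (c + 1) z ⟨x₁, hx₁, -x₂, B₂.neg_mem hx₂, by rw [← hz]; ring⟩
  have hG : x₁ - π * b₁ = x₂ + π * b₂ := by
    have h0 : x₁ - x₂ = π * (π ^ c * z) := by rw [hz]; ring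
    rw [hb] at h0
    linear_combination h0
  refine ⟨x₁ - π * b₁, B₁.sub_mem hx₁ (B₁.mul_mem hπ₁ hb₁), ?_,
    ⟨a₁ - b₁, B₁.sub_mem ha₁ hb₁, ?_⟩, a₂ + b₂, B₂.add_mem ha₂ hb₂, ?_⟩
  · rw [hG]
    exact B₂.add_mem hx₂ (B₂.mul_mem hπ₂ hb₂)
  · have h0 : x₁ - π * b₁ - e₁ = (x₁ - e₁) - π * b₁ := by ring
    rw [h0, hxa₁]
    ring
  · rw [hG]
    have h0 : x₂ + π * b₂ - e₂ = (x₂ - e₂) + π * b₂ := by ring
    rw [h0, hxa₂]
    ring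

end

end Fermat.Agent.S18.H30
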