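/-
S18 / wave 4 (helper30): the statements K5, K6, K7 of helper47's sub-skeleton of the Kummer–Cech
leaf (origin/helper47 @b598f28, `Fermat/Agent/S18/H47/Skel.lean`), VERBATIM (K6 with the extra
hypothesis `j ≠ 0`, without which it is false), derived from the abstract lemmas of
`CechIdem.lean` and `CechFG.lean`.  Mathlib only.

* `k5_cech_lift`: idempotents modulo `ϖ` on two charts agreeing on the overlap glue to a common
  element of both charts.
* `k6_exists_finset_cover`: the Cech cokernel `B₁₂ / (B₁ + B₂)` is finitely generated.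
* `k7_isIntegral_of_forall_valuationSubring`, `k7_mem_valuationSubring_of_isIntegral`:
  the integral closure is the intersection of the valuation rings.
-/
import Fermat.Agent.S18.H30.CechIdem
import Fermat.Agent.S18.H30.CechFG

set_option autoImplicit false

open Polynomial

namespace Fermat.Agent.S18.H30

/-- **K5** (statement of `H47.cech_lift`, verbatim). -/
theorem k5_cech_lift {A₀ B : Type*} [CommRing A₀] [IsNoetherianRing A₀] [CommRing B] [Algebra A₀ B]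
    (ϖ : A₀) (B₁ B₂ B₁₂ : Subalgebra A₀ B) (h1 : B₁ ≤ B₁₂) (h2 : B₂ ≤ B₁₂) (s : Finset B)
    (hs : Subalgebra.toSubmodule B₁₂ ≤
      Subalgebra.toSubmodule B₁ ⊔ Subalgebra.toSubmodule B₂ ⊔ Submodule.span A₀ (s : Set B))
    (ε₁ ε₂ : B) (h₁ : ε₁ ∈ B₁) (h₂ : ε₂ ∈ B₂)
    (hid₁ : ∃ w ∈ B₁, ε₁ ^ 2 - ε₁ = ϖ • w) (hid₂ : ∃ w ∈ B₂, ε₂ ^ 2 - ε₂ = ϖ • w)
    (h12 : ∃ w ∈ B₁₂, ε₁ - ε₂ = ϖ • w) :
    ∃ G : B, G ∈ B₁ ∧ G ∈ B₂ ∧ ∃ w ∈ B₁, G - ε₁ = ϖ • w := by
  classical
  obtain ⟨c, hc⟩ := cech_bounded_torsion ϖ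
    (Subalgebra.toSubmodule B₁ ⊔ Subalgebra.toSubmodule B₂) (Subalgebra.toSubmodule B₁₂) s hs
  -- the two charts as subrings of the overlap ring
  let C₁ : Subring ↥B₁₂ := B₁.toSubring.comap (B₁₂.val : ↥B₁₂ →+* B)
  let C₂ : Subring ↥B₁₂ := B₂.toSubring.comap (B₁₂.val : ↥B₁₂ →+* B)
  have hC₁ : ∀ z : ↥B₁₂, z ∈ C₁ ↔ (z : B) ∈ B₁ := fun z => Iff.rfl
  have hC₂ : ∀ z : ↥B₁₂, z ∈ C₂ ↔ (z : B) ∈ B₂ := fun z => Iff.rfl
  set π : ↥B₁₂ := algebraMap A₀ ↥B₁₂ ϖ with hπdef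
  have hπB : ∀ z : ↥B₁₂, ((π * z : ↥B₁₂) : B) = ϖ • (z : B) := by
    intro z
    rw [Algebra.smul_def]
    rfl
  have hπpow : ∀ (n : ℕ) (z : ↥B₁₂), ((π ^ n * z : ↥B₁₂) : B) = ϖ ^ n • (z : B) := by
    intro n z
    rw [Algebra.smul_def, map_pow]
    rfl
  obtain ⟨w₁, hw₁, hw₁'⟩ := hid₁
  obtain ⟨w₂, hw₂, hw₂'⟩ := hid₂
  obtain ⟨w, hw, hw'⟩ := h12
  obtain ⟨G, hG₁, hG₂, ⟨a, ha, hGa⟩, -⟩ := cech_exists_global π C₁ C₂
    ((hC₁ π).mpr (B₁.algebraMap_mem ϖ)) ((hC₂ π).mpr (B₂.algebraMap_mem ϖ)) c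
    (by
      rintro n y ⟨b₁, hb₁, b₂, hb₂, h⟩
      have hmem : ϖ ^ n • (y : B) ∈ Subalgebra.toSubmodule B₁ ⊔ Subalgebra.toSubmodule B₂ := by
        rw [← hπpow, h]
        exact Submodule.add_mem_sup ((hC₁ b₁).mp hb₁) ((hC₂ b₂).mp hb₂)
      obtain ⟨d₁, hd₁, d₂, hd₂, hd⟩ := Submodule.mem_sup.mp (hc n (y : B) y.2 hmem)
      refine ⟨⟨d₁, h1 hd₁⟩, hd₁, ⟨d₂, h2 hd₂⟩, hd₂, Subtype.ext ?_⟩
      rw [hπpow]
      exact hd.symm)
    ⟨ε₁, h1 h₁⟩ ⟨ε₂, h2 h₂⟩ h₁ h₂
    ⟨⟨w₁, h1 hw₁⟩, hw₁, Subtype.ext (by rw [hπB]; exact hw₁')⟩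
    ⟨⟨w₂, h2 hw₂⟩, hw₂, Subtype.ext (by rw [hπB]; exact hw₂')⟩
    ⟨⟨w, hw⟩, Subtype.ext (by rw [hπB]; exact hw')⟩
  refine ⟨(G : B), hG₁, hG₂, (a : B), ha, ?_⟩
  rw [← hπB, ← hGa]
  rfl

/-- **K6** (statement of `H47.exists_finset_cover`, with the necessary extra hypothesis `j ≠ 0`:
for `j = 0` the statement is false, e.g. `A₀ = ℤ`, `B₁ = B₂ = ⊥`, `B₁₂ = ⊤` in `ℚ`). -/
theorem k6_exists_finset_cover {A₀ E : Type*} [CommRing A₀] [Field E] [Algebra A₀ E] (j : E)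
    (hj : j ≠ 0)
    (B₁ B₂ B₁₂ : Subalgebra A₀ E) (hj₁ : j ∈ B₁) (hj₂ : j⁻¹ ∈ B₂)
    (hfin : ∃ s : Finset E, (∀ b ∈ s, b ∈ B₁) ∧
      ∀ y ∈ B₁, y ∈ Submodule.span (Algebra.adjoin A₀ ({j} : Set E)) (s : Set E))
    (h₁ : ∀ y ∈ B₁₂, ∃ n : ℕ, j ^ n * y ∈ B₁) (h₂ : ∀ y ∈ B₁, ∃ n : ℕ, j⁻¹ ^ n * y ∈ B₂) :
    ∃ s' : Finset E, Subalgebra.toSubmodule B₁₂ ≤
      Subalgebra.toSubmodule B₁ ⊔ Subalgebra.toSubmodule B₂ ⊔ Submodule.span A₀ (s' : Set E) := by
  classical
  obtain ⟨T, hT, hspan⟩ := hfin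
  set W : Submodule A₀ E :=
    Submodule.span A₀ {z : E | ∃ (s : ℕ) (μ : E), μ ∈ T ∧ z = j ^ s * μ} with hWdef
  -- `W` is stable under multiplication by `j`
  have hjW : ∀ w ∈ W, j * w ∈ W := by
    intro w hw
    induction hw using Submodule.span_induction with
    | mem z hz =>
      obtain ⟨s, μ, hμ, rfl⟩ := hz
      exact Submodule.subset_span ⟨s + 1, μ, hμ, by rw [pow_succ']; ring⟩
    | zero => rw [mul_zero]; exact W.zero_mem
    | add u v _ _ hu hv => rw [mul_add]; exact W.add_mem hu hv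
    | smul a u _ hu => rw [mul_smul_comm]; exact W.smul_mem a hu
  -- hence under multiplication by `A₀[j]`
  have hadjW : ∀ a ∈ Algebra.adjoin A₀ ({j} : Set E), ∀ w ∈ W, a * w ∈ W := by
    intro a ha
    induction ha using Algebra.adjoin_induction with
    | mem x hx =>
      rw [Set.mem_singleton_iff] at hx
      subst hx
      exact hjW
    | algebraMap r =>
      intro w hw
      rw [← Algebra.smul_def]
      exact W.smul_mem r hw
    | add x y _ _ hx hy =>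
      intro w hw
      rw [add_mul]
      exact W.add_mem (hx w hw) (hy w hw)
    | mul x y _ _ hx hy =>
      intro w hw
      rw [mul_assoc]
      exact hx _ (hy w hw)
  have hB₁W : ∀ y ∈ Submodule.span (Algebra.adjoin A₀ ({j} : Set E)) (T : Set E), y ∈ W := by
    intro y hy
    induction hy using Submodule.span_induction with
    | mem z hz => exact Submodule.subset_span ⟨0, z, hz, by rw [pow_zero, one_mul]⟩
    | zero => exact W.zero_mem
    | add u v _ _ hu hv => exact W.add_mem hu hv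
    | smul a u _ hu => exact hadjW a.1 a.2 u hu
  exact cech_fg_two_chart j j⁻¹ (mul_inv_cancel₀ hj) (Subalgebra.toSubmodule B₁)
    (Subalgebra.toSubmodule B₂) (Subalgebra.toSubmodule B₁₂) T
    (fun y hy => hB₁W y (hspan y hy))
    (fun μ hμ s => B₁.mul_mem (B₁.pow_mem hj₁ s) (hT μ hμ))
    (fun μ hμ => by
      obtain ⟨n, hn⟩ := h₂ μ (hT μ hμ)
      refine ⟨n, fun t ht => ?_⟩
      obtain ⟨d, rfl⟩ := Nat.exists_eq_add_of_le ht
      have h0 : j⁻¹ ^ (n + d) * μ = j⁻¹ ^ d * (j⁻¹ ^ n * μ) := by rw [pow_add]; ring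
      rw [h0]
      exact B₂.mul_mem (B₂.pow_mem hj₂ d) hn)
    (fun y hy => h₁ y hy)

/-- Integrality over the range of a ring homomorphism descends to the source. -/
theorem k7_isIntegralElem_of_isIntegral_range {R E : Type*} [CommRing R] [CommRing E]
    [Nontrivial E] (f : R →+* E) (x : E) (hx : IsIntegral f.range x) : f.IsIntegralElem x := by
  obtain ⟨q, hq, hqx⟩ := hx
  have hlift : q.map f.range.subtype ∈ Polynomial.lifts f := by
    rw [Polynomial.lifts_iff_coeff_lifts]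
    intro n
    rw [Polynomial.coeff_map]
    exact (q.coeff n).2
  obtain ⟨r, hr, -, hrm⟩ := Polynomial.lifts_and_degree_eq_and_monic hlift (hq.map _)
  refine ⟨r, hrm, ?_⟩
  rw [← Polynomial.eval_map, hr, Polynomial.eval_map]
  exact hqx

/-- Integrality over the source gives integrality over any subring containing the image. -/
theorem k7_isIntegral_subring_of_isIntegralElem {R E : Type*} [CommRing R] [CommRing E]
    (f : R →+* E) (S : Subring E) (hS : ∀ r, f r ∈ S) (x : E) (hx : f.IsIntegralElem x) :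
    IsIntegral S x := by
  obtain ⟨q, hq, hqx⟩ := hx
  refine ⟨q.map (f.codRestrict S hS), hq.map _, ?_⟩
  rw [Polynomial.eval₂_map]
  exact hqx

/-- **K7** (statement of `H47.isIntegral_of_forall_valuationSubring`, verbatim). -/
theorem k7_isIntegral_of_forall_valuationSubring {A₀ E : Type*} [CommRing A₀] [Field E]
    [Algebra A₀ E] (G : E)
    (h : ∀ V : ValuationSubring E, (∀ a : A₀, algebraMap A₀ E a ∈ V) → G ∈ V) :
    IsIntegral A₀ G := by
  have hmem : G ∈ (⨅ V : {V : ValuationSubring E // Set.range (algebraMap A₀ E) ⊆ V.toSubring},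
      V.1.toSubring) := by
    rw [Subring.mem_iInf]
    rintro ⟨V, hV⟩
    exact h V (fun a => hV ⟨a, rfl⟩)
  rw [iInf_valuationSubring_superset] at hmem
  have h1 : IsIntegral (Subring.closure (Set.range (algebraMap A₀ E))) G := hmem
  have h2 : Subring.closure (Set.range (algebraMap A₀ E)) = (algebraMap A₀ E).range := by
    rw [← RingHom.coe_range, Subring.closure_eq]
  rw [h2] at h1
  exact k7_isIntegralElem_of_isIntegral_range (algebraMap A₀ E) G h1

/-- **K7'** (statement of `H47.mem_valuationSubring_of_isIntegral`, verbatim). -/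
theorem k7_mem_valuationSubring_of_isIntegral {R E : Type*} [CommRing R] [Field E] [Algebra R E]
    (V : ValuationSubring E) (hR : ∀ r : R, algebraMap R E r ∈ V) {x : E} (hx : IsIntegral R x) :
    x ∈ V := by
  have hsub : Set.range (algebraMap R E) ⊆ (V.toSubring : Set E) := by
    rintro _ ⟨r, rfl⟩
    exact hR r
  have h1 : IsIntegral (Subring.closure (Set.range (algebraMap R E))) x :=
    k7_isIntegral_subring_of_isIntegralElem (algebraMap R E)
      (Subring.closure (Set.range (algebraMap R E)))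
      (fun r => Subring.subset_closure (Set.mem_range_self r)) x hx
  have h2 : x ∈ (integralClosure (Subring.closure (Set.range (algebraMap R E))) E).toSubring := h1
  rw [← iInf_valuationSubring_superset, Subring.mem_iInf] at h2
  exact h2 (⟨V, hsub⟩ :
    {V : ValuationSubring E // Set.range (algebraMap R E) ⊆ (V.toSubring : Set E)})

end Fermat.Agent.S18.H30
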