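/-
S18 / wave 4 (helper30): LOCAL FACTORISATION (step K1 of the Kummer–Cech leaf, reports #1088/#1203)
in a fraction-free form.

`S` is a noetherian local integrally closed domain, `π` a prime element such that `S / π` is a
principal ideal ring (`hPIR`), `D ∈ S` is prime to `π` and, at every prime element `s` not dividing
`π`, `D` is a `p`-th power up to elements prime to `s` (`hdiv`).  Then `D` is a `p`-th power up to
a unit of `S`.  (In the application `D = b * a ^ (p-1)` for `f = a / b`, so `f = unit * t ^ p`.)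

No unique factorisation, no Krull principal ideal theorem: every prime `q ∌ π` is principal by
Nakayama, and so is the ideal `{y | D ∣ y ^ p}`.
-/
import Mathlib

set_option autoImplicit false

namespace Fermat.Agent.S18.H30

section Mult

variable {S : Type*} [CommRing S] [IsDomain S] [IsNoetherianRing S]

/-- Multiplicity bookkeeping at a prime element `s`: if `D` is a `p`-th power up to elements prime
to `s`, `y ^ p = D * u` and `s ∣ u`, then `s ^ p ∣ u`. -/
theorem locpow_pow_dvd_of_rel (s : S) (hs : Prime s) (p : ℕ) (hp : 0 < p)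
    (D α β γ δ y u : S) (hD : D ≠ 0) (hβ : β ≠ 0) (hγ : ¬ s ∣ γ) (hδ : ¬ s ∣ δ)
    (hrel : D * δ * β ^ p = γ * α ^ p) (hy : y ^ p = D * u) (hu : u ≠ 0) (hsu : s ∣ u) :
    s ^ p ∣ u := by
  have fin : ∀ z : S, z ≠ 0 → FiniteMultiplicity s z := fun z hz =>
    FiniteMultiplicity.of_not_isUnit hs.not_isUnit hz
  have hδ0 : δ ≠ 0 := fun h => hδ (h ▸ dvd_zero s)
  have hγ0 : γ ≠ 0 := fun h => hγ (h ▸ dvd_zero s)
  have hα0 : α ≠ 0 := by
    rintro rfl
    rw [zero_pow hp.ne', mul_zero] at hrel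
    exact (mul_ne_zero (mul_ne_zero hD hδ0) (pow_ne_zero p hβ)) hrel
  have hy0 : y ≠ 0 := by
    rintro rfl
    rw [zero_pow hp.ne'] at hy
    exact (mul_ne_zero hD hu) hy.symm
  have e1 : multiplicity s D + multiplicity s δ + p * multiplicity s β
      = multiplicity s γ + p * multiplicity s α := by
    have hL : multiplicity s (D * δ * β ^ p)
        = multiplicity s D + multiplicity s δ + p * multiplicity s β := by
      rw [multiplicity_mul hs (fin _ (mul_ne_zero (mul_ne_zero hD hδ0) (pow_ne_zero p hβ))),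
        multiplicity_mul hs (fin _ (mul_ne_zero hD hδ0)), (fin β hβ).multiplicity_pow hs]
    have hR : multiplicity s (γ * α ^ p) = multiplicity s γ + p * multiplicity s α := by
      rw [multiplicity_mul hs (fin _ (mul_ne_zero hγ0 (pow_ne_zero p hα0))),
        (fin α hα0).multiplicity_pow hs]
    rw [← hL, ← hR, hrel]
  have e2 : p * multiplicity s y = multiplicity s D + multiplicity s u := by
    rw [← (fin y hy0).multiplicity_pow hs, hy, multiplicity_mul hs (fin _ (mul_ne_zero hD hu))]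
  have hγm : multiplicity s γ = 0 := multiplicity_eq_zero.mpr hγ
  have hδm : multiplicity s δ = 0 := multiplicity_eq_zero.mpr hδ
  have hum : 0 < multiplicity s u := multiplicity_pos_of_dvd hsu
  rw [(fin u hu).pow_dvd_iff_le_multiplicity]
  rw [hγm, hδm, add_zero, zero_add] at e1
  have hpD : p ∣ multiplicity s D :=
    (Nat.dvd_add_left (dvd_mul_right p (multiplicity s β))).mp ⟨multiplicity s α, e1⟩
  have hpu : p ∣ multiplicity s u :=
    (Nat.dvd_add_right hpD).mp ⟨multiplicity s y, e2.symm⟩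
  exact Nat.le_of_dvd hum hpu

end Mult

section Local

variable {S : Type*} [CommRing S] [IsDomain S] [IsNoetherianRing S] [IsLocalRing S]
  [IsIntegrallyClosed S]

/-- The set `{y | D ∣ y ^ p}` is an ideal of an integrally closed domain. -/
def locpowIdeal (p : ℕ) (hp : 0 < p) (D : S) : Ideal S where
  carrier := {y | D ∣ y ^ p}
  zero_mem' := by
    show D ∣ (0 : S) ^ p
    rw [zero_pow hp.ne']
    exact dvd_zero D
  add_mem' := by
    intro a b ha hb
    obtain ⟨c₁, hc₁⟩ := ha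
    obtain ⟨c₂, hc₂⟩ := hb
    show D ∣ (a + b) ^ p
    rw [add_pow]
    refine Finset.dvd_sum fun i hi => ?_
    have hi' : i ≤ p := Nat.lt_succ_iff.mp (Finset.mem_range.mp hi)
    refine Dvd.dvd.mul_right ?_ _
    rw [← IsIntegrallyClosed.pow_dvd_pow_iff hp.ne']
    refine ⟨c₁ ^ i * c₂ ^ (p - i), ?_⟩
    have h1 : (a ^ i * b ^ (p - i)) ^ p = (a ^ p) ^ i * (b ^ p) ^ (p - i) := by
      rw [mul_pow, ← pow_mul, ← pow_mul, ← pow_mul, ← pow_mul, mul_comm i p, mul_comm (p - i) p]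
    have h2 : D ^ p = D ^ i * D ^ (p - i) := by
      rw [← pow_add, Nat.add_sub_cancel' hi']
    rw [h1, hc₁, hc₂, h2, mul_pow, mul_pow]
    ring
  smul_mem' := by
    intro c y hy
    show D ∣ (c • y) ^ p
    rw [smul_eq_mul, mul_pow]
    exact Dvd.dvd.mul_left hy _

/-- **Local factorisation.** -/
theorem locpow_exists (π : S) (hπ : Prime π)
    (hPIR : ∀ I : Ideal S, ∃ y₀ ∈ I, I ≤ Ideal.span {y₀} ⊔ Ideal.span {π})
    (p : ℕ) (hp : 0 < p) (D : S) (hD : ¬ π ∣ D)
    (hdiv : ∀ s : S, Prime s → ¬ s ∣ π →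
      ∃ α β γ δ : S, β ≠ 0 ∧ ¬ s ∣ γ ∧ ¬ s ∣ δ ∧ D * δ * β ^ p = γ * α ^ p) :
    ∃ y₀ v : S, IsUnit v ∧ y₀ ^ p = v * D := by
  classical
  have hD0 : D ≠ 0 := fun h => hD (h ▸ dvd_zero π)
  set I : Ideal S := locpowIdeal p hp D with hIdef
  have hImem : ∀ y, y ∈ I ↔ D ∣ y ^ p := fun y => Iff.rfl
  have hsat : ∀ z, π * z ∈ I → z ∈ I := by
    intro z hz
    rw [hImem, mul_pow] at hz
    obtain ⟨c, hc⟩ := hz
    have h1 : π ^ p ∣ c := hπ.pow_dvd_of_dvd_mul_left p hD (hc ▸ dvd_mul_right _ _)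
    obtain ⟨c', rfl⟩ := h1
    refine (hImem z).mpr ⟨c', ?_⟩
    have h2 : π ^ p * z ^ p = π ^ p * (D * c') := by rw [hc]; ring
    exact mul_left_cancel₀ (pow_ne_zero p hπ.ne_zero) h2
  have hjac : Ideal.span {π} ≤ Ideal.jacobson (⊥ : Ideal S) := by
    rw [IsLocalRing.jacobson_eq_maximalIdeal ⊥ bot_ne_top, Ideal.span_singleton_le_iff_mem,
      IsLocalRing.mem_maximalIdeal]
    exact hπ.not_isUnit
  obtain ⟨y₀, hy₀I, hIle⟩ := hPIR I
  have hI : I = Ideal.span {y₀} := by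
    refine le_antisymm ?_ ((Ideal.span_singleton_le_iff_mem _).mpr hy₀I)
    refine Submodule.le_of_le_smul_of_le_jacobson_bot (IsNoetherian.noetherian I) hjac ?_
    intro y hy
    obtain ⟨a, ha, b, hb, rfl⟩ := Submodule.mem_sup.mp (hIle hy)
    obtain ⟨z, rfl⟩ := Ideal.mem_span_singleton'.mp hb
    refine Submodule.mem_sup.mpr ⟨a, ha, z * π, ?_, rfl⟩
    have hzI : z ∈ I := hsat z (by
      have h0 : π * z = (a + z * π) - a := by ring
      rw [h0]
      exact I.sub_mem hy ((Ideal.span_singleton_le_iff_mem _).mpr hy₀I ha))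
    rw [mul_comm]
    exact Submodule.smul_mem_smul (Ideal.mem_span_singleton_self π) hzI
  have hDI : D ∈ I := (hImem D).mpr (dvd_pow_self D hp.ne')
  obtain ⟨c, hc⟩ := Ideal.mem_span_singleton'.mp (hI ▸ hDI)
  obtain ⟨u, hu⟩ := (hImem y₀).mp hy₀I
  have hy₀0 : y₀ ≠ 0 := by
    rintro rfl
    exact hD0 (by rw [← hc, mul_zero])
  have hu0 : u ≠ 0 := by
    rintro rfl
    rw [mul_zero] at hu
    exact pow_ne_zero p hy₀0 hu
  have hπy₀ : ¬ π ∣ y₀ := fun h => hD (hc ▸ Dvd.dvd.mul_left h c)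
  have hπu : ¬ π ∣ u := fun h => hπy₀ (hπ.dvd_of_dvd_pow (hu ▸ Dvd.dvd.mul_left h D))
  refine ⟨y₀, u, ?_, by rw [hu, mul_comm]⟩
  by_contra hunit
  have hdisj : Disjoint ((Ideal.span {u} : Ideal S) : Set S) (Submonoid.powers π : Set S) := by
    rw [Set.disjoint_left]
    rintro z hz ⟨n, rfl⟩
    replace hz : π ^ n ∈ Ideal.span {u} := hz
    obtain ⟨e, he⟩ := Ideal.mem_span_singleton'.mp hz
    have h1 : π ^ n ∣ e := hπ.pow_dvd_of_dvd_mul_left n hπu (by rw [mul_comm, he])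
    obtain ⟨e', rfl⟩ := h1
    apply hunit
    have h2 : π ^ n * (u * e') = π ^ n * 1 := by rw [mul_one]; linear_combination he
    exact IsUnit.of_mul_eq_one _ (mul_left_cancel₀ (pow_ne_zero n hπ.ne_zero) h2)
  obtain ⟨q, hqprime, huq, hqdisj⟩ :=
    Ideal.exists_le_prime_disjoint (Ideal.span {u}) (Submonoid.powers π) hdisj
  have hπq : π ∉ q := fun h => Set.disjoint_left.mp hqdisj h ⟨1, pow_one π⟩
  have huq' : u ∈ q := huq (Ideal.mem_span_singleton_self u)
  obtain ⟨s, hsq, hqle⟩ := hPIR q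
  have hq : q = Ideal.span {s} := by
    refine le_antisymm ?_ ((Ideal.span_singleton_le_iff_mem _).mpr hsq)
    refine Submodule.le_of_le_smul_of_le_jacobson_bot (IsNoetherian.noetherian q) hjac ?_
    intro y hy
    obtain ⟨a, ha, b, hb, rfl⟩ := Submodule.mem_sup.mp (hqle hy)
    obtain ⟨z, rfl⟩ := Ideal.mem_span_singleton'.mp hb
    refine Submodule.mem_sup.mpr ⟨a, ha, z * π, ?_, rfl⟩
    have hzπ : z * π ∈ q := by
      have h0 : z * π = (a + z * π) - a := by ring
      rw [h0]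
      exact q.sub_mem hy ((Ideal.span_singleton_le_iff_mem _).mpr hsq ha)
    have hzq : z ∈ q := (hqprime.mem_or_mem hzπ).resolve_right hπq
    rw [mul_comm]
    exact Submodule.smul_mem_smul (Ideal.mem_span_singleton_self π) hzq
  have hs0 : s ≠ 0 := by
    rintro rfl
    rw [hq, Ideal.mem_span_singleton, zero_dvd_iff] at huq'
    exact hu0 huq'
  have hsprime : Prime s := (Ideal.span_singleton_prime hs0).mp (hq ▸ hqprime)
  have hsπ : ¬ s ∣ π := fun h => hπq (hq ▸ Ideal.mem_span_singleton.mpr h)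
  have hsu : s ∣ u := Ideal.mem_span_singleton.mp (hq ▸ huq')
  obtain ⟨α, β, γ, δ, hβ, hγ, hδ, hrel⟩ := hdiv s hsprime hsπ
  have hspu : s ^ p ∣ u :=
    locpow_pow_dvd_of_rel s hsprime p hp D α β γ δ y₀ u hD0 hβ hγ hδ hrel hu hu0 hsu
  obtain ⟨u₁, rfl⟩ := hspu
  have hsy : s ∣ y₀ := hsprime.dvd_of_dvd_pow
    (hu ▸ Dvd.dvd.mul_left (Dvd.dvd.mul_right (dvd_pow_self s hp.ne') u₁) D)
  obtain ⟨y₁, rfl⟩ := hsy
  have hy₁ : y₁ ^ p = D * u₁ := by
    have h0 : s ^ p * y₁ ^ p = s ^ p * (D * u₁) := by rw [← mul_pow, hu]; ring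
    exact mul_left_cancel₀ (pow_ne_zero p hs0) h0
  have hy₁I : y₁ ∈ I := (hImem y₁).mpr ⟨u₁, hy₁⟩
  rw [hI] at hy₁I
  obtain ⟨e, he⟩ := Ideal.mem_span_singleton'.mp hy₁I
  have hy₁0 : y₁ ≠ 0 := by
    rintro rfl
    exact hy₀0 (mul_zero s)
  have h3 : (s * e) * y₁ = 1 * y₁ := by rw [one_mul]; linear_combination he
  exact hsprime.not_isUnit (IsUnit.of_mul_eq_one _ (mul_right_cancel₀ hy₁0 h3))

end Local

end Fermat.Agent.S18.H30
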