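/-
S18 / wave 4 (helper30): the discrete valuation ring attached to a prime ELEMENT `s` of a
noetherian domain `S`, as a `ValuationSubring` of a field `F` of fractions of `S`
(`F ⊇ ι(S)`, every element of `F` a quotient of elements of `ι(S)`).
Carrier: `{z | ∃ c d, ¬ s ∣ d ∧ z * ι d = ι c}`.  Mathlib only.
-/
import Mathlib

set_option autoImplicit false

namespace Fermat.Agent.S18.H30

section PrimeVal

variable {S F : Type*} [CommRing S] [IsDomain S] [IsNoetherianRing S] [Field F]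

/-- Every nonzero element is a power of the prime `s` times an element prime to `s`. -/
theorem primeval_exists_pow_mul (s : S) (hs : Prime s) (c : S) (hc : c ≠ 0) :
    ∃ (n : ℕ) (c' : S), c = s ^ n * c' ∧ ¬ s ∣ c' := by
  obtain ⟨c', h1, h2⟩ :=
    (FiniteMultiplicity.of_not_isUnit hs.not_isUnit hc).exists_eq_pow_mul_and_not_dvd
  exact ⟨_, c', h1, h2⟩

/-- The valuation subring of `F` of the prime element `s`. -/
def primeValSub (ι : S →+* F) (hι : Function.Injective ι)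
    (hfrac : ∀ z : F, ∃ c d : S, d ≠ 0 ∧ z * ι d = ι c) (s : S) (hs : Prime s) :
    ValuationSubring F where
  carrier := {z | ∃ c d : S, ¬ s ∣ d ∧ z * ι d = ι c}
  mul_mem' := by
    rintro z₁ z₂ ⟨c₁, d₁, hd₁, h₁⟩ ⟨c₂, d₂, hd₂, h₂⟩
    refine ⟨c₁ * c₂, d₁ * d₂, fun h => (hs.dvd_or_dvd h).elim hd₁ hd₂, ?_⟩
    rw [map_mul, map_mul, ← h₁, ← h₂]
    ring
  one_mem' := ⟨1, 1, fun h => hs.not_isUnit (isUnit_of_dvd_one h), by simp⟩
  add_mem' := by
    rintro z₁ z₂ ⟨c₁, d₁, hd₁, h₁⟩ ⟨c₂, d₂, hd₂, h₂⟩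
    refine ⟨c₁ * d₂ + c₂ * d₁, d₁ * d₂, fun h => (hs.dvd_or_dvd h).elim hd₁ hd₂, ?_⟩
    rw [map_add, map_mul, map_mul, map_mul, ← h₁, ← h₂]
    ring
  zero_mem' := ⟨0, 1, fun h => hs.not_isUnit (isUnit_of_dvd_one h), by simp⟩
  neg_mem' := by
    rintro z ⟨c, d, hd, h⟩
    exact ⟨-c, d, hd, by rw [map_neg, ← h]; ring⟩
  mem_or_inv_mem' := by
    intro z
    obtain ⟨c, d, hd, h⟩ := hfrac z
    have hι0 : ∀ w : S, w ≠ 0 → ι w ≠ 0 := fun w hw h0 => hw (hι (by rw [h0, map_zero]))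
    have hιd : ι d ≠ 0 := hι0 d hd
    by_cases hc : c = 0
    · left
      have hz : z = 0 := by
        rw [hc, map_zero] at h
        exact (mul_eq_zero.mp h).resolve_right hιd
      exact ⟨0, 1, fun h => hs.not_isUnit (isUnit_of_dvd_one h), by simp [hz]⟩
    · obtain ⟨m, c', rfl, hc'⟩ := primeval_exists_pow_mul s hs c hc
      obtain ⟨n, d', rfl, hd'⟩ := primeval_exists_pow_mul s hs d hd
      have hιs : ι s ≠ 0 := hι0 s hs.ne_zero
      have hc'0 : c' ≠ 0 := fun h0 => hc' (h0 ▸ dvd_zero s)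
      have hd'0 : d' ≠ 0 := fun h0 => hd' (h0 ▸ dvd_zero s)
      rw [map_mul, map_mul, map_pow, map_pow] at h
      rcases le_total n m with hnm | hmn
      · left
        refine ⟨s ^ (m - n) * c', d', hd', ?_⟩
        obtain ⟨k, rfl⟩ := Nat.exists_eq_add_of_le hnm
        rw [Nat.add_sub_cancel_left, map_mul, map_pow]
        have h1 : ι s ^ n * (z * ι d') = ι s ^ n * (ι s ^ k * ι c') := by
          rw [← mul_assoc (ι s ^ n) (ι s ^ k), ← pow_add, ← h]
          ring
        exact mul_left_cancel₀ (pow_ne_zero n hιs) h1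
      · right
        refine ⟨s ^ (n - m) * d', c', hc', ?_⟩
        obtain ⟨k, rfl⟩ := Nat.exists_eq_add_of_le hmn
        rw [Nat.add_sub_cancel_left, map_mul, map_pow]
        have h1 : ι s ^ m * (z * (ι s ^ k * ι d')) = ι s ^ m * ι c' := by
          rw [← h, pow_add]
          ring
        have h2 := mul_left_cancel₀ (pow_ne_zero m hιs) h1
        have hz : z ≠ 0 := by
          rintro rfl
          rw [zero_mul] at h2
          exact hι0 c' hc'0 h2.symm
        rw [← h2]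
        field_simp

theorem mem_primeValSub (ι : S →+* F) (hι : Function.Injective ι)
    (hfrac : ∀ z : F, ∃ c d : S, d ≠ 0 ∧ z * ι d = ι c) (s : S) (hs : Prime s) (z : F) :
    z ∈ primeValSub ι hι hfrac s hs ↔ ∃ c d : S, ¬ s ∣ d ∧ z * ι d = ι c := Iff.rfl

/-- Structure of the nonzero elements of `primeValSub`: a power of `ι s` times a unit. -/
theorem primeValSub_exists_unit (ι : S →+* F) (hι : Function.Injective ι)
    (hfrac : ∀ z : F, ∃ c d : S, d ≠ 0 ∧ z * ι d = ι c) (s : S) (hs : Prime s)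
    (z : F) (hz : z ∈ primeValSub ι hι hfrac s hs) (hz0 : z ≠ 0) :
    ∃ (n : ℕ) (w : F), w ∈ primeValSub ι hι hfrac s hs ∧ w⁻¹ ∈ primeValSub ι hι hfrac s hs ∧
      w ≠ 0 ∧ z = ι s ^ n * w := by
  have hι0 : ∀ w : S, w ≠ 0 → ι w ≠ 0 := fun w hw h0 => hw (hι (by rw [h0, map_zero]))
  obtain ⟨c, d, hd, h⟩ := hz
  have hd0 : d ≠ 0 := fun h0 => hd (h0 ▸ dvd_zero s)
  have hc0 : c ≠ 0 := by
    rintro rfl
    rw [map_zero] at h
    exact hz0 ((mul_eq_zero.mp h).resolve_right (hι0 d hd0))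
  obtain ⟨n, c', rfl, hc'⟩ := primeval_exists_pow_mul s hs c hc0
  have hc'0 : c' ≠ 0 := fun h0 => hc' (h0 ▸ dvd_zero s)
  have hιd := hι0 d hd0
  have hιc' := hι0 c' hc'0
  refine ⟨n, ι c' / ι d, ⟨c', d, hd, by field_simp⟩, ⟨d, c', hc', by field_simp⟩,
    div_ne_zero hιc' hιd, ?_⟩
  rw [map_mul, map_pow] at h
  field_simp
  exact h

/-- `primeValSub` is a discrete valuation ring. -/
theorem primeValSub_isDiscreteValuationRing (ι : S →+* F) (hι : Function.Injective ι)
    (hfrac : ∀ z : F, ∃ c d : S, d ≠ 0 ∧ z * ι d = ι c) (s : S) (hs : Prime s) :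
    IsDiscreteValuationRing (primeValSub ι hι hfrac s hs) := by
  have hι0 : ∀ w : S, w ≠ 0 → ι w ≠ 0 := fun w hw h0 => hw (hι (by rw [h0, map_zero]))
  have hιs : ι s ≠ 0 := hι0 s hs.ne_zero
  have h1 : ¬ s ∣ (1 : S) := fun h => hs.not_isUnit (isUnit_of_dvd_one h)
  set V := primeValSub ι hι hfrac s hs with hV
  have hsV : ι s ∈ V := ⟨s, 1, h1, by simp⟩
  -- `ι s` is not invertible in `V`
  have hnot : ∀ y : F, y ∈ V → ι s * y ≠ 1 := by
    rintro y ⟨c, d, hd, h⟩ hy
    apply hd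
    refine ⟨c, hι ?_⟩
    rw [map_mul, ← h, ← mul_assoc, hy, one_mul]
  -- units of `V` from elements with inverse in `V`
  have hunit : ∀ (w : F) (hw : w ∈ V), w⁻¹ ∈ V → w ≠ 0 → IsUnit (⟨w, hw⟩ : V) := by
    intro w hw hw' hw0
    refine IsUnit.of_mul_eq_one (⟨w⁻¹, hw'⟩ : V) (Subtype.ext ?_)
    show w * w⁻¹ = 1
    exact mul_inv_cancel₀ hw0
  apply IsDiscreteValuationRing.ofHasUnitMulPowIrreducibleFactorization
  refine ⟨⟨ι s, hsV⟩, ?_, ?_⟩
  · rw [irreducible_iff]
    refine ⟨?_, ?_⟩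
    · intro hu
      obtain ⟨y, hy⟩ := hu.exists_right_inv
      exact hnot y.1 y.2 (congrArg Subtype.val hy)
    · intro a b hab
      have hab' : ι s = (a : F) * (b : F) := congrArg Subtype.val hab
      have ha0 : (a : F) ≠ 0 := fun h0 => hιs (by rw [hab', h0, zero_mul])
      have hb0 : (b : F) ≠ 0 := fun h0 => hιs (by rw [hab', h0, mul_zero])
      obtain ⟨n, wa, hwa, hwa', hwa0, hna⟩ :=
        primeValSub_exists_unit ι hι hfrac s hs a a.2 ha0
      obtain ⟨m, wb, hwb, hwb', hwb0, hmb⟩ :=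
        primeValSub_exists_unit ι hι hfrac s hs b b.2 hb0
      rcases Nat.eq_zero_or_pos n with hn | hn
      · left
        have : a = ⟨wa, hwa⟩ := Subtype.ext (by rw [hna, hn, pow_zero, one_mul])
        rw [this]
        exact hunit wa hwa hwa' hwa0
      · rcases Nat.eq_zero_or_pos m with hm | hm
        · right
          have : b = ⟨wb, hwb⟩ := Subtype.ext (by rw [hmb, hm, pow_zero, one_mul])
          rw [this]
          exact hunit wb hwb hwb' hwb0
        · exfalso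
          obtain ⟨n', rfl⟩ := Nat.exists_eq_add_of_le' hn
          obtain ⟨m', rfl⟩ := Nat.exists_eq_add_of_le' hm
          refine hnot (ι s ^ (n' + m') * (wa * wb)) ?_ ?_
          · exact mul_mem (pow_mem hsV _) (mul_mem hwa hwb)
          · have h2 : ι s * 1 = ι s * (ι s * (ι s ^ (n' + m') * (wa * wb))) := by
              rw [mul_one]
              conv_lhs => rw [hab', hna, hmb]
              ring
            exact (mul_left_cancel₀ hιs h2).symm
  · intro x hx
    have hx0 : (x : F) ≠ 0 := fun h0 => hx (Subtype.ext h0)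
    obtain ⟨n, w, hw, hw', hw0, hn⟩ := primeValSub_exists_unit ι hι hfrac s hs x x.2 hx0
    refine ⟨n, (hunit w hw hw' hw0).unit, Subtype.ext ?_⟩
    show ι s ^ n * w = x
    exact hn.symm

end PrimeVal

end Fermat.Agent.S18.H30
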