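/-
S18 / wave 4 (helper30): step K1 of the Kummer–Cech leaf (reports #1088/#1203/#1282):
LOCAL FACTORISATION at the closed points of `V(π)`.

`R` noetherian integrally closed domain with field of fractions `F` (via an injective `ι`),
`π` a prime element with `R / π` a Dedekind domain, `f = a / b` with `a, b` prime to `π`, and
`f` a `p`-th power up to a unit in every discrete valuation ring `V ⊇ R[1/π]` of `F`.  Then for
every prime `x ∋ π` of `R` there are `y`, `e₁ ∉ x`, `e₂ ∉ x` with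
`e₂ * y ^ p = e₁ * (b * a ^ (p-1))`, i.e. `f * e₂ = e₁ * (a / y) ^ p`  (`globpow_local`).
`local_factor_subalgebra` is the statement K1 of helper47's sub-skeleton, verbatim up to unfolding
`Dv`.

Proof: the local ring `S = R_x` is a noetherian local integrally closed domain, `S / π` is a
principal ideal ring (`globpow_hPIR`: it is a localisation of the Dedekind domain `R / π`), the
primes `s ∤ π` of `S` give discrete valuation rings `primeValSub` of `F` containing `R[1/π]`, and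
`locpow_exists` applies.  Mathlib only.
-/
import Fermat.Agent.S18.H30.LocalPow
import Fermat.Agent.S18.H30.PrimeVal

set_option autoImplicit false

universe u v

namespace Fermat.Agent.S18.H30

section PIR

variable {R : Type u} [CommRing R]

/-- `S / π` is a principal ideal ring for `S` the local ring of `R` at a prime containing `π`,
when `R / π` is a Dedekind domain (fraction-free form). -/
theorem globpow_hPIR (π : R) [IsDedekindDomain (R ⧸ Ideal.span {π})]
    (P : Ideal (R ⧸ Ideal.span {π})) [P.IsPrime]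
    (I : Ideal (Localization.AtPrime (P.comap (Ideal.Quotient.mk (Ideal.span {π}))))) :
    ∃ y₀ ∈ I, I ≤ Ideal.span {y₀} ⊔ Ideal.span
      {algebraMap R (Localization.AtPrime (P.comap (Ideal.Quotient.mk (Ideal.span {π})))) π} := by
  classical
  by_cases hP : P = ⊥
  · have hx : P.comap (Ideal.Quotient.mk (Ideal.span {π})) = Ideal.span {π} := by
      rw [hP, ← RingHom.ker_eq_comap_bot, Ideal.mk_ker]
    by_cases hI : I = ⊤
    · refine ⟨1, hI ▸ Submodule.mem_top, ?_⟩
      rw [Ideal.span_singleton_one]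
      exact le_top.trans le_sup_left
    · refine ⟨0, I.zero_mem, ?_⟩
      have h1 : I ≤ IsLocalRing.maximalIdeal _ := IsLocalRing.le_maximalIdeal hI
      rw [← Localization.AtPrime.map_eq_maximalIdeal] at h1
      have h2 : Ideal.map (algebraMap R (Localization.AtPrime
          (P.comap (Ideal.Quotient.mk (Ideal.span {π})))))
          (P.comap (Ideal.Quotient.mk (Ideal.span {π})))
          = Ideal.span {algebraMap R (Localization.AtPrime
              (P.comap (Ideal.Quotient.mk (Ideal.span {π})))) π} := by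
        refine (congrArg (Ideal.map (algebraMap R (Localization.AtPrime
          (P.comap (Ideal.Quotient.mk (Ideal.span {π})))))) hx).trans ?_
        rw [Ideal.map_span, Set.image_singleton]
      rw [h2] at h1
      exact h1.trans le_sup_right
  · have : IsDiscreteValuationRing (Localization.AtPrime P) :=
      IsLocalization.AtPrime.isDiscreteValuationRing_of_dedekind_domain _ hP _
    set φ := Localization.localRingHom (P.comap (Ideal.Quotient.mk (Ideal.span {π}))) P
      (Ideal.Quotient.mk (Ideal.span {π})) rfl with hφdef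
    have hφ : Function.Surjective φ :=
      RingHom.surjective_localRingHom_of_surjective (Ideal.Quotient.mk (Ideal.span {π}))
        Ideal.Quotient.mk_surjective P
    have hker : ∀ z, φ z = 0 → z ∈ Ideal.span
        {algebraMap R (Localization.AtPrime (P.comap (Ideal.Quotient.mk (Ideal.span {π})))) π} := by
      intro z hz
      obtain ⟨r, m, rfl⟩ := IsLocalization.exists_mk'_eq
        (P.comap (Ideal.Quotient.mk (Ideal.span {π}))).primeCompl z
      rw [hφdef, Localization.localRingHom_mk', IsLocalization.mk'_eq_zero_iff] at hz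
      obtain ⟨n, hn⟩ := hz
      have hn0 : (n : R ⧸ Ideal.span {π}) ≠ 0 := fun h0 => n.2 (h0 ▸ P.zero_mem)
      have hr : (Ideal.Quotient.mk (Ideal.span {π})) r = 0 :=
        (mul_eq_zero.mp hn).resolve_left hn0
      rw [Ideal.Quotient.eq_zero_iff_mem] at hr
      obtain ⟨r', rfl⟩ := Ideal.mem_span_singleton'.mp hr
      refine Ideal.mem_span_singleton'.mpr ⟨IsLocalization.mk' _ r' m, ?_⟩
      rw [mul_comm, IsLocalization.mul_mk'_eq_mk'_of_mul, mul_comm]
    obtain ⟨g, hg⟩ := (IsPrincipalIdealRing.principal (I.map φ)).principal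
    have hgmem : g ∈ I.map φ := by rw [hg]; exact Submodule.mem_span_singleton_self g
    obtain ⟨y₀, hy₀, rfl⟩ := (Ideal.mem_map_iff_of_surjective φ hφ).mp hgmem
    refine ⟨y₀, hy₀, ?_⟩
    intro z hz
    have hzmem : φ z ∈ I.map φ := Ideal.mem_map_of_mem φ hz
    rw [hg] at hzmem
    obtain ⟨w, hw⟩ := (Submodule.mem_span_singleton).mp hzmem
    obtain ⟨w', rfl⟩ := hφ w
    have h3 : φ (z - w' * y₀) = 0 := by
      rw [map_sub, map_mul, ← hw, smul_eq_mul, sub_self]
    refine Submodule.mem_sup.mpr ⟨w' * y₀, ?_, z - w' * y₀, hker _ h3, by ring⟩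
    exact Ideal.mul_mem_left _ _ (Ideal.mem_span_singleton_self y₀)

end PIR

section Loc

variable {R : Type u} [CommRing R] [IsDomain R] [IsNoetherianRing R] [IsIntegrallyClosed R]
  {F : Type v} [Field F]

/-- Local factorisation at a prime `x ∋ π` of `R`, descended to `R`. -/
theorem globpow_local_comap (ι : R →+* F) (hι : Function.Injective ι)
    (hfrac : ∀ z : F, ∃ c d : R, d ≠ 0 ∧ z * ι d = ι c)
    (π : R) (hπ : Prime π) [IsDedekindDomain (R ⧸ Ideal.span {π})]
    (p : ℕ) (hp : 0 < p) (a b : R) (ha : ¬ π ∣ a) (hb : ¬ π ∣ b)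
    (hdiv : ∀ V : ValuationSubring F, (∀ r : R, ι r ∈ V) → (ι π)⁻¹ ∈ V →
      IsDiscreteValuationRing V →
      ∃ t : F, t ≠ 0 ∧ (ι a / ι b) / t ^ p ∈ V ∧ ((ι a / ι b) / t ^ p)⁻¹ ∈ V)
    (P : Ideal (R ⧸ Ideal.span {π})) [P.IsPrime] :
    ∃ y e₁ e₂ : R, e₁ ∉ P.comap (Ideal.Quotient.mk (Ideal.span {π})) ∧
      e₂ ∉ P.comap (Ideal.Quotient.mk (Ideal.span {π})) ∧ e₂ * y ^ p = e₁ * (b * a ^ (p - 1)) := by
  classical
  set x : Ideal R := P.comap (Ideal.Quotient.mk (Ideal.span {π})) with hxdef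
  have hπx : π ∈ x := by
    rw [hxdef, Ideal.mem_comap]
    have : (Ideal.Quotient.mk (Ideal.span {π})) π = 0 :=
      Ideal.Quotient.eq_zero_iff_mem.mpr (Ideal.mem_span_singleton_self π)
    rw [this]
    exact P.zero_mem
  have hxM : x.primeCompl ≤ nonZeroDivisors R := Ideal.primeCompl_le_nonZeroDivisors x
  have hinj : Function.Injective (algebraMap R (Localization.AtPrime x)) :=
    IsLocalization.injective _ hxM
  have : IsIntegrallyClosed (Localization.AtPrime x) :=
    isIntegrallyClosed_of_isLocalization (Localization.AtPrime x) x.primeCompl hxM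
  have ha0 : a ≠ 0 := fun h => ha (h ▸ dvd_zero π)
  have hb0 : b ≠ 0 := fun h => hb (h ▸ dvd_zero π)
  have hι0 : ∀ w : R, w ≠ 0 → ι w ≠ 0 := fun w hw h0 => hw (hι (by rw [h0, map_zero]))
  -- `π` stays prime in the local ring
  have hπS0 : algebraMap R (Localization.AtPrime x) π ≠ 0 := fun h0 =>
    hπ.ne_zero (hinj (by rw [h0, map_zero]))
  have hπS : Prime (algebraMap R (Localization.AtPrime x) π) := by
    rw [← Ideal.span_singleton_prime hπS0]
    have h1 : (Ideal.span {π} : Ideal R).IsPrime := (Ideal.span_singleton_prime hπ.ne_zero).mpr hπ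
    have h2 := IsLocalization.isPrime_of_isPrime_disjoint x.primeCompl (Localization.AtPrime x)
      (Ideal.span {π}) h1 (by
        rw [Set.disjoint_left]
        intro z hz hz'
        exact hz ((Ideal.span_singleton_le_iff_mem _).mpr hπx hz'))
    rwa [Ideal.map_span, Set.image_singleton] at h2
  -- divisibility by `π` descends
  have hdesc : ∀ D : R, ¬ π ∣ D → ¬ algebraMap R (Localization.AtPrime x) π ∣
      algebraMap R (Localization.AtPrime x) D := by
    rintro D hD ⟨w, hw⟩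
    obtain ⟨r, m, rfl⟩ := IsLocalization.exists_mk'_eq x.primeCompl w
    have h1 : algebraMap R (Localization.AtPrime x) (D * m)
        = algebraMap R (Localization.AtPrime x) (π * r) := by
      rw [map_mul, map_mul, hw, mul_assoc, IsLocalization.mk'_spec]
    have h2 : π ∣ D * m := ⟨r, hinj h1⟩
    rcases hπ.dvd_or_dvd h2 with h3 | h3
    · exact hD h3
    · exact m.2 ((Ideal.span_singleton_le_iff_mem _).mpr hπx (Ideal.mem_span_singleton.mpr h3))
  have hDR : ¬ π ∣ b * a ^ (p - 1) := fun h =>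
    (hπ.dvd_or_dvd h).elim hb (fun h' => ha (hπ.dvd_of_dvd_pow h'))
  -- the embedding of the local ring into `F`
  have hunitM : ∀ y : x.primeCompl, IsUnit (ι y) := fun y =>
    (hι0 y (fun h0 => y.2 (h0 ▸ x.zero_mem))).isUnit
  set ιS : Localization.AtPrime x →+* F := IsLocalization.lift hunitM with hιSdef
  have hιSalg : ∀ r : R, ιS (algebraMap R (Localization.AtPrime x) r) = ι r := fun r =>
    IsLocalization.lift_eq hunitM r
  have hιS : Function.Injective ιS := by
    rw [hιSdef, IsLocalization.lift_injective_iff]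
    intro r r'
    exact ⟨fun h => congrArg ι (hinj h), fun h => congrArg _ (hι h)⟩
  have hfracS : ∀ z : F, ∃ c d : Localization.AtPrime x, d ≠ 0 ∧ z * ιS d = ιS c := by
    intro z
    obtain ⟨c, d, hd, h⟩ := hfrac z
    refine ⟨algebraMap R _ c, algebraMap R _ d, fun h0 => hd (hinj (by rw [h0, map_zero])), ?_⟩
    rw [hιSalg, hιSalg, h]
  have hιS0 : ∀ w : Localization.AtPrime x, w ≠ 0 → ιS w ≠ 0 :=
    fun w hw h0 => hw (hιS (by rw [h0, map_zero]))
  obtain ⟨y₀, v, hv, hyv⟩ := locpow_exists (algebraMap R (Localization.AtPrime x) π) hπS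
    (fun I => globpow_hPIR π P I) p hp (algebraMap R (Localization.AtPrime x) (b * a ^ (p - 1)))
    (hdesc _ hDR) (by
      intro s hs hsπ
      have h1s : ¬ s ∣ (1 : Localization.AtPrime x) := fun h => hs.not_isUnit (isUnit_of_dvd_one h)
      obtain ⟨t, ht0, hg, hg'⟩ := hdiv (primeValSub ιS hιS hfracS s hs)
        (fun r => ⟨algebraMap R _ r, 1, h1s, by rw [map_one, mul_one, hιSalg]⟩)
        ⟨1, algebraMap R _ π, hsπ, by
          rw [hιSalg, map_one, inv_mul_cancel₀ (hι0 π hπ.ne_zero)]⟩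
        (primeValSub_isDiscreteValuationRing ιS hιS hfracS s hs)
      obtain ⟨c₁, d₁, hd₁, h₁⟩ := hg
      obtain ⟨c₂, d₂, hd₂, h₂⟩ := hg'
      obtain ⟨t₁, t₂, ht₂, h₃⟩ := hfracS t
      have hιa := hι0 a ha0
      have hιb := hι0 b hb0
      have hιt₂ := hιS0 t₂ ht₂
      have ht₁ : t₁ ≠ 0 := by
        rintro rfl
        rw [map_zero] at h₃
        exact (mul_ne_zero ht0 hιt₂) h₃
      have hg0 : (ι a / ι b) / t ^ p ≠ 0 := div_ne_zero (div_ne_zero hιa hιb) (pow_ne_zero p ht0)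
      have hcd : c₁ * c₂ = d₁ * d₂ := by
        apply hιS
        rw [map_mul, map_mul, ← h₁, ← h₂]
        field_simp
      have hc₁ : ¬ s ∣ c₁ := fun h =>
        (hs.dvd_or_dvd (hcd ▸ Dvd.dvd.mul_right h c₂)).elim hd₁ hd₂
      refine ⟨algebraMap R _ a * t₂, t₁, d₁, c₁, ht₁, hd₁, hc₁, ?_⟩
      apply hιS
      have hap : a ^ p = a * a ^ (p - 1) := by
        rw [← pow_succ', Nat.sub_add_cancel hp]
      have ht : t = ιS t₁ / ιS t₂ := by
        rw [eq_div_iff hιt₂, h₃]
      simp only [map_mul, map_pow, hιSalg]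
      rw [← h₁, ht]
      have hιt₁ := hιS0 t₁ ht₁
      have hap' : ι a ^ p = ι a * ι a ^ (p - 1) := by rw [← map_pow, hap, map_mul, map_pow]
      rw [div_pow, mul_pow, hap']
      field_simp)
  obtain ⟨y, m₁, rfl⟩ := IsLocalization.exists_mk'_eq x.primeCompl y₀
  obtain ⟨e, m₂, rfl⟩ := IsLocalization.exists_mk'_eq x.primeCompl v
  rw [IsLocalization.AtPrime.isUnit_mk'_iff] at hv
  refine ⟨y, (m₁ : R) ^ p * e, m₂, ?_, m₂.2, ?_⟩
  · intro h
    rcases (inferInstance : x.IsPrime).mem_or_mem h with h' | h'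
    · exact m₁.2 ((inferInstance : x.IsPrime).mem_of_pow_mem p h')
    · exact hv h'
  · apply hinj
    have e1 := IsLocalization.mk'_spec (Localization.AtPrime x) y m₁
    have e2 := IsLocalization.mk'_spec (Localization.AtPrime x) e m₂
    simp only [map_mul, map_pow]
    rw [← e1, ← e2, mul_pow, hyv, map_mul, map_pow]
    ring

/-- **Local factorisation at a prime `x ∋ π`**, fraction-free: `b * a ^ (p-1)` is a `p`-th power
up to multipliers outside `x`. -/
theorem globpow_local (ι : R →+* F) (hι : Function.Injective ι)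
    (hfrac : ∀ z : F, ∃ c d : R, d ≠ 0 ∧ z * ι d = ι c)
    (π : R) (hπ : Prime π) [IsDedekindDomain (R ⧸ Ideal.span {π})]
    (p : ℕ) (hp : 0 < p) (a b : R) (ha : ¬ π ∣ a) (hb : ¬ π ∣ b)
    (hdiv : ∀ V : ValuationSubring F, (∀ r : R, ι r ∈ V) → (ι π)⁻¹ ∈ V →
      IsDiscreteValuationRing V →
      ∃ t : F, t ≠ 0 ∧ (ι a / ι b) / t ^ p ∈ V ∧ ((ι a / ι b) / t ^ p)⁻¹ ∈ V)
    (x : Ideal R) [x.IsPrime] (hπx : π ∈ x) :
    ∃ y e₁ e₂ : R, e₁ ∉ x ∧ e₂ ∉ x ∧ e₂ * y ^ p = e₁ * (b * a ^ (p - 1)) := by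
  have hle : Ideal.span {π} ≤ x := (Ideal.span_singleton_le_iff_mem _).mpr hπx
  have hP : (x.map (Ideal.Quotient.mk (Ideal.span {π}))).IsPrime :=
    Ideal.map_isPrime_of_surjective Ideal.Quotient.mk_surjective (by rw [Ideal.mk_ker]; exact hle)
  have hx : (x.map (Ideal.Quotient.mk (Ideal.span {π}))).comap (Ideal.Quotient.mk (Ideal.span {π}))
      = x := by
    rw [Ideal.comap_map_of_surjective _ Ideal.Quotient.mk_surjective, ← RingHom.ker_eq_comap_bot,
      Ideal.mk_ker, sup_eq_left.mpr hle]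
  obtain ⟨y, e₁, e₂, h₁, h₂, h⟩ := globpow_local_comap ι hι hfrac π hπ p hp a b ha hb hdiv
    (x.map (Ideal.Quotient.mk (Ideal.span {π})))
  rw [hx] at h₁ h₂
  exact ⟨y, e₁, e₂, h₁, h₂, h⟩

end Loc

section K1

variable {A₀ : Type*} [CommRing A₀] [IsDomain A₀] {F : Type*} [Field F] [Algebra A₀ F]

/-- **K1 of the Kummer–Cech leaf** (statement of `H47.local_factor` of helper47's sub-skeleton,
with `Dv ϖ C c` unfolded to `∃ d ∈ C, c = ϖ • d`). -/
theorem local_factor_subalgebra [IsDiscreteValuationRing A₀] [FaithfulSMul A₀ F]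
    (ϖ : A₀) (hϖ : Irreducible ϖ) (p : ℕ) (hp : p ≠ 0)
    (C : Subalgebra A₀ F) [IsIntegrallyClosed ↥C] [IsNoetherianRing ↥C]
    (hfrac : ∀ x : F, ∃ a ∈ C, ∃ b ∈ C, b ≠ 0 ∧ x = a / b)
    (hded : IsDedekindDomain (↥C ⧸ Ideal.span {algebraMap A₀ ↥C ϖ}))
    (f : F) (hf : ∃ a ∈ C, ∃ b ∈ C, ¬ (∃ d ∈ C, a = ϖ • d) ∧ ¬ (∃ d ∈ C, b = ϖ • d) ∧ f * b = a)
    (hdiv : ∀ V : ValuationSubring F, (∀ a : A₀, a ≠ 0 → (algebraMap A₀ F a)⁻¹ ∈ V) →
      IsDiscreteValuationRing V → ∃ t : F, t ≠ 0 ∧ f / t ^ p ∈ V ∧ (f / t ^ p)⁻¹ ∈ V)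
    (x : Ideal ↥C) (hx : x.IsMaximal) (hϖx : algebraMap A₀ ↥C ϖ ∈ x) :
    ∃ t : F, t ≠ 0 ∧ ∃ a : ↥C, a ∉ x ∧ ∃ b : ↥C, b ∉ x ∧ f * (b : F) = (a : F) * t ^ p := by
  classical
  obtain ⟨a, haC, b, hbC, ha, hb, hfab⟩ := hf
  set π : ↥C := algebraMap A₀ ↥C ϖ with hπdef
  have hπF : (π : F) = algebraMap A₀ F ϖ := rfl
  have hϖF : algebraMap A₀ F ϖ ≠ 0 := fun h0 =>
    hϖ.ne_zero (FaithfulSMul.algebraMap_injective A₀ F (by rw [h0, map_zero]))
  have hπ0 : π ≠ 0 := fun h0 => hϖF (by rw [← hπF, h0]; rfl)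
  have hπ : Prime π := by
    have : IsDomain (↥C ⧸ Ideal.span {π}) := hded.toIsDomain
    exact (Ideal.span_singleton_prime hπ0).mp ((Ideal.Quotient.isDomain_iff_prime _).mp this)
  have hdvd : ∀ (c : F) (hc : c ∈ C), ¬ (∃ d ∈ C, c = ϖ • d) → ¬ π ∣ (⟨c, hc⟩ : ↥C) := by
    rintro c hc hnot ⟨d, hd⟩
    refine hnot ⟨(d : F), d.2, ?_⟩
    have := congrArg (Subtype.val) hd
    rw [Algebra.smul_def, ← hπF]
    exact this
  have ha' := hdvd a haC ha
  have hb' := hdvd b hbC hb
  have ha0 : a ≠ 0 := by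
    rintro rfl
    exact ha ⟨0, C.zero_mem, by rw [smul_zero]⟩
  have hb0 : b ≠ 0 := by
    rintro rfl
    exact hb ⟨0, C.zero_mem, by rw [smul_zero]⟩
  have hf' : f = a / b := by rw [eq_div_iff hb0, hfab]
  have := hx.isPrime
  obtain ⟨y, e₁, e₂, h₁, h₂, h⟩ := globpow_local (R := ↥C) (F := F) (C.val : ↥C →+* F)
    Subtype.val_injective
    (fun z => by
      obtain ⟨c, hc, d, hd, hd0, rfl⟩ := hfrac z
      exact ⟨⟨c, hc⟩, ⟨d, hd⟩, fun h0 => hd0 (congrArg Subtype.val h0), div_mul_cancel₀ c hd0⟩)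
    π hπ p (Nat.pos_of_ne_zero hp) ⟨a, haC⟩ ⟨b, hbC⟩ ha' hb'
    (fun V hV hπV hdvr => by
      have h := hdiv V (fun a₀ ha₀ => by
        obtain ⟨n, u, rfl⟩ := IsDiscreteValuationRing.eq_unit_mul_pow_irreducible ha₀ hϖ
        have h1 : (algebraMap A₀ F (↑u * ϖ ^ n))⁻¹
            = algebraMap A₀ F (↑u⁻¹ : A₀) * ((algebraMap A₀ F ϖ)⁻¹) ^ n := by
          have h2 : algebraMap A₀ F (↑u : A₀) * algebraMap A₀ F (↑u⁻¹ : A₀) = 1 := by
            rw [← map_mul, Units.mul_inv, map_one]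
          rw [map_mul, map_pow, mul_inv, inv_pow]
          congr 1
          exact inv_eq_of_mul_eq_one_right h2
        rw [h1]
        exact mul_mem (hV (algebraMap A₀ ↥C (↑u⁻¹ : A₀))) (pow_mem hπV n)) hdvr
      rw [hf'] at h
      exact h)
    x hϖx
  have hy0 : (y : F) ≠ 0 := by
    intro h0
    have hy : y = 0 := Subtype.ext h0
    rw [hy, zero_pow hp, mul_zero] at h
    have ha'0 : (⟨a, haC⟩ : ↥C) ≠ 0 := fun h0 => ha0 (congrArg Subtype.val h0)
    have hb'0 : (⟨b, hbC⟩ : ↥C) ≠ 0 := fun h0 => hb0 (congrArg Subtype.val h0)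
    have he₁ : e₁ = 0 :=
      (mul_eq_zero.mp h.symm).resolve_right (mul_ne_zero hb'0 (pow_ne_zero _ ha'0))
    exact h₁ (he₁ ▸ x.zero_mem)
  have hF : (e₂ : F) * (y : F) ^ p = (e₁ : F) * (b * a ^ (p - 1)) := congrArg Subtype.val h
  have hap : a ^ p = a * a ^ (p - 1) := by
    rw [← pow_succ', Nat.sub_add_cancel (Nat.pos_of_ne_zero hp)]
  refine ⟨a / y, div_ne_zero ha0 hy0, e₁, h₁, e₂, h₂, ?_⟩
  rw [div_pow, mul_div_assoc', eq_div_iff (pow_ne_zero _ hy0), mul_assoc, hF, hap, ← hfab]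
  ring

end K1

end Fermat.Agent.S18.H30
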