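/-
S18 / wave 4 (helper30): finiteness pieces for the E-free Kummer–Cech theorem `cech_charts`
(K2-C of core 2; reports #1138/#1213/#1522).

* `cech_span_of_ideal`: a `C`-stable `A₀`-submodule `N` of `F` with `a • N ⊆ C` (`a ≠ 0`), for a
  noetherian chart `C` which is a finite module over `A₀[j]`, is spanned over `A₀` by the
  elements `j ^ s * μ`, `μ` in a finite subset `T ⊆ N`.
* `cech_bdd_of_charts`: bounded `ϖ`-power torsion of `M₁₂ / (M₁ + M₂)` on the two standard charts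
  (hypothesis `hbdd` of the abstract Cech torsion core).
Mathlib only (plus `CechFG.lean`).
-/
import Fermat.Agent.S18.H30.CechFG

set_option autoImplicit false

namespace Fermat.Agent.S18.H30

section

variable {A₀ : Type*} [CommRing A₀] {F : Type*} [Field F] [Algebra A₀ F]

/-- A `C`-stable submodule `N` with `a • N ⊆ C` is `A₀`-spanned by `j ^ s * μ`, `μ ∈ T` finite. -/
theorem cech_span_of_ideal (C : Subalgebra A₀ F) [IsNoetherianRing ↥C] (j : F) (hj : j ∈ C)
    (hfin : ∃ s : Finset F, (C : Set F) =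
      Submodule.span (Algebra.adjoin A₀ ({j} : Set F)) (s : Set F))
    (N : Submodule A₀ F) (hCN : ∀ c ∈ C, ∀ x ∈ N, c * x ∈ N) (a : F) (ha : a ≠ 0)
    (haN : ∀ x ∈ N, x * a ∈ C) :
    ∃ T : Finset F, (∀ μ ∈ T, μ ∈ N) ∧ ∀ y ∈ N,
      y ∈ Submodule.span A₀ {z : F | ∃ (s : ℕ) (μ : F), μ ∈ T ∧ z = j ^ s * μ} := by
  classical
  obtain ⟨s₁, hs₁⟩ := hfin
  -- the ideal `a • N` of `C`
  let I : Ideal ↥C :=
    { carrier := {y | (y : F) / a ∈ N}
      zero_mem' := by
        show ((0 : ↥C) : F) / a ∈ N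
        rw [ZeroMemClass.coe_zero, zero_div]
        exact N.zero_mem
      add_mem' := by
        intro y z hy hz
        show ((y + z : ↥C) : F) / a ∈ N
        rw [AddMemClass.coe_add, add_div]
        exact N.add_mem hy hz
      smul_mem' := by
        intro c y hy
        show ((c • y : ↥C) : F) / a ∈ N
        rw [smul_eq_mul, MulMemClass.coe_mul, mul_div_assoc]
        exact hCN c c.2 _ hy }
  have hImem : ∀ y : ↥C, y ∈ I ↔ (y : F) / a ∈ N := fun y => Iff.rfl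
  obtain ⟨G, hG⟩ : I.FG := IsNoetherian.noetherian I
  have hGI : ∀ g ∈ G, (g : F) / a ∈ N := fun g hg =>
    (hImem g).mp (hG ▸ Submodule.subset_span hg)
  have hs₁C : ∀ σ ∈ s₁, σ ∈ C := by
    intro σ hσ
    have h1 : σ ∈ (C : Set F) := by
      rw [hs₁]
      exact Submodule.subset_span hσ
    exact h1
  let T : Finset F := (s₁ ×ˢ G.image Subtype.val).image (fun p => p.1 * (p.2 / a))
  have hTmem : ∀ μ, μ ∈ T ↔ ∃ σ ∈ s₁, ∃ g ∈ G, μ = σ * ((g : F) / a) := by
    intro μ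
    simp only [T, Finset.mem_image, Finset.mem_product, Prod.exists]
    constructor
    · rintro ⟨σ, g', ⟨hσ, g, hg, rfl⟩, rfl⟩
      exact ⟨σ, hσ, g, hg, rfl⟩
    · rintro ⟨σ, hσ, g, hg, rfl⟩
      exact ⟨σ, (g : F), ⟨hσ, g, hg, rfl⟩, rfl⟩
  refine ⟨T, ?_, ?_⟩
  · intro μ hμ
    obtain ⟨σ, hσ, g, hg, rfl⟩ := (hTmem μ).mp hμ
    exact hCN σ (hs₁C σ hσ) _ (hGI g hg)
  set W : Submodule A₀ F :=
    Submodule.span A₀ {z : F | ∃ (s : ℕ) (μ : F), μ ∈ T ∧ z = j ^ s * μ} with hWdef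
  -- `W` is stable under multiplication by `j`, hence by `A₀[j]`
  have hjW : ∀ w ∈ W, j * w ∈ W := by
    intro w hw
    induction hw using Submodule.span_induction with
    | mem z hz =>
      obtain ⟨s, μ, hμ, rfl⟩ := hz
      exact Submodule.subset_span ⟨s + 1, μ, hμ, by rw [pow_succ']; ring⟩
    | zero => rw [mul_zero]; exact W.zero_mem
    | add u v _ _ hu hv => rw [mul_add]; exact W.add_mem hu hv
    | smul r u _ hu => rw [mul_smul_comm]; exact W.smul_mem r hu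
  have hadjW : ∀ q ∈ Algebra.adjoin A₀ ({j} : Set F), ∀ w ∈ W, q * w ∈ W := by
    intro q hq
    induction hq using Algebra.adjoin_induction with
    | mem x hx =>
      rw [Set.mem_singleton_iff] at hx
      subst hx
      exact hjW
    | algebraMap r =>
      intro w hw
      rw [← Algebra.smul_def]
      exact W.smul_mem r hw
    | add x y _ _ hx hy =>
      intro w hw
      rw [add_mul]
      exact W.add_mem (hx w hw) (hy w hw)
    | mul x y _ _ hx hy =>
      intro w hw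
      rw [mul_assoc]
      exact hx _ (hy w hw)
  -- key claim: `c * (g / a) ∈ W` for `c ∈ C`, `g ∈ G`
  have key : ∀ g ∈ G, ∀ c ∈ C, c * ((g : F) / a) ∈ W := by
    intro g hg c hc
    have hc' : c ∈ Submodule.span (Algebra.adjoin A₀ ({j} : Set F)) (s₁ : Set F) := by
      have h1 : c ∈ (C : Set F) := hc
      rw [hs₁] at h1
      exact h1
    clear hc
    induction hc' using Submodule.span_induction with
    | mem σ hσ =>
      refine Submodule.subset_span ⟨0, σ * ((g : F) / a), (hTmem _).mpr ⟨σ, hσ, g, hg, rfl⟩, ?_⟩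
      rw [pow_zero, one_mul]
    | zero => rw [zero_mul]; exact W.zero_mem
    | add u v _ _ hu hv => rw [add_mul]; exact W.add_mem hu hv
    | smul q u _ hu =>
      have h0 : q • u * ((g : F) / a) = (q : F) * (u * ((g : F) / a)) := by
        rw [Algebra.smul_def, mul_assoc]
        rfl
      rw [h0]
      exact hadjW q.1 q.2 _ hu
  -- every element of the ideal, divided by `a`, lies in `W` (even after multiplication by `C`)
  have hIW : ∀ y ∈ Ideal.span (G : Set ↥C), ∀ c ∈ C, c * ((y : F) / a) ∈ W := by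
    intro y hy
    induction hy using Submodule.span_induction with
    | mem g hg => exact key g hg
    | zero =>
      intro c _
      rw [ZeroMemClass.coe_zero, zero_div, mul_zero]
      exact W.zero_mem
    | add u v _ _ hu hv =>
      intro c hc
      rw [AddMemClass.coe_add, add_div, mul_add]
      exact W.add_mem (hu c hc) (hv c hc)
    | smul c' u _ hu =>
      intro c hc
      have h0 : c * (((c' • u : ↥C) : F) / a) = (c * (c' : F)) * ((u : F) / a) := by
        rw [smul_eq_mul, MulMemClass.coe_mul]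
        ring
      rw [h0]
      exact hu _ (C.mul_mem hc c'.2)
  intro y hy
  have hya : ((⟨y * a, haN y hy⟩ : ↥C) : F) / a = y := mul_div_cancel_right₀ y ha
  have hyI : (⟨y * a, haN y hy⟩ : ↥C) ∈ I := (hImem _).mpr (by rw [hya]; exact hy)
  have h1 := hIW _ (by rw [hG]; exact hyI) 1 C.one_mem
  rw [hya, one_mul] at h1
  exact h1

/-- **Bounded torsion of the Cech cokernel** `M₁₂ / (M₁ + M₂)` on the two standard charts. -/
theorem cech_bdd_of_charts [IsNoetherianRing A₀] (ϖ : A₀) (j : F) (hj0 : j ≠ 0)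
    (C₁ : Subalgebra A₀ F) [IsNoetherianRing ↥C₁] (hj₁ : j ∈ C₁)
    (hfin₁ : ∃ s : Finset F, (C₁ : Set F) =
      Submodule.span (Algebra.adjoin A₀ ({j} : Set F)) (s : Set F))
    (M₁ M₂ M₁₂ : Submodule A₀ F) (hCM₁ : ∀ c ∈ C₁, ∀ x ∈ M₁, c * x ∈ M₁) (a : F) (ha : a ≠ 0)
    (haM : ∀ x ∈ M₁, x * a ∈ C₁)
    (h₂ : ∀ y ∈ M₁, ∃ N : ℕ, ∀ t : ℕ, N ≤ t → j⁻¹ ^ t * y ∈ M₂)
    (h₁₂ : ∀ y ∈ M₁₂, ∃ t : ℕ, j ^ t * y ∈ M₁) :
    ∃ c : ℕ, ∀ (n : ℕ) (y : F), y ∈ M₁₂ → ϖ ^ n • y ∈ M₁ ⊔ M₂ → ϖ ^ c • y ∈ M₁ ⊔ M₂ := by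
  obtain ⟨T, hT, hspan⟩ := cech_span_of_ideal C₁ j hj₁ hfin₁ M₁ hCM₁ a ha haM
  obtain ⟨S, hS⟩ := cech_fg_two_chart j j⁻¹ (mul_inv_cancel₀ hj0) M₁ M₂ M₁₂ T hspan
    (fun μ hμ s => hCM₁ _ (C₁.pow_mem hj₁ s) μ (hT μ hμ))
    (fun μ hμ => h₂ μ (hT μ hμ)) h₁₂
  exact cech_bounded_torsion ϖ (M₁ ⊔ M₂) M₁₂ S hS

end

end Fermat.Agent.S18.H30
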