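/-
S18 / wave 4 (helper30): the GLOBAL normalised solution of `f * h ^ p ∈ R` (step (T1) of the
E-free Kummer–Cech argument, reports #1138/#1213; input of `cech_charts`).

`R` noetherian integrally closed domain with field of fractions `F`, `π` prime with `R / π`
Dedekind, `f = a / b` with `a ≡ b mod π`, `π ∤ b`, and `f` a `p`-th power up to a unit in every
discrete valuation ring `V ⊇ R[1/π]`.  Then there is `y ∈ R` with `b * a ^ (p-1) ∣ y ^ p` and
`y ≡ a mod π`; i.e. `h := y / a` satisfies `f * h ^ p ∈ R` and `h ≡ 1 mod π`.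

Proof: the set of `r` such that some `y` with `b a^(p-1) ∣ y^p` is `≡ r a mod π` is an ideal
containing `π`; by the local factorisation `globpow_local` it is contained in no maximal ideal.
Mathlib only.
-/
import Fermat.Agent.S18.H30.GlobalPow

set_option autoImplicit false

universe u v

namespace Fermat.Agent.S18.H30

section Global

variable {R : Type u} [CommRing R] [IsDomain R] [IsNoetherianRing R] [IsIntegrallyClosed R]
  {F : Type v} [Field F]

/-- **Global normalised solution.** -/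
theorem globpow_global (ι : R →+* F) (hι : Function.Injective ι)
    (hfrac : ∀ z : F, ∃ c d : R, d ≠ 0 ∧ z * ι d = ι c)
    (π : R) (hπ : Prime π) [IsDedekindDomain (R ⧸ Ideal.span {π})]
    (p : ℕ) (hp : 0 < p) (a b : R) (hb : ¬ π ∣ b) (hab : π ∣ a - b)
    (hdiv : ∀ V : ValuationSubring F, (∀ r : R, ι r ∈ V) → (ι π)⁻¹ ∈ V →
      IsDiscreteValuationRing V →
      ∃ t : F, t ≠ 0 ∧ (ι a / ι b) / t ^ p ∈ V ∧ ((ι a / ι b) / t ^ p)⁻¹ ∈ V) :
    ∃ y : R, b * a ^ (p - 1) ∣ y ^ p ∧ π ∣ y - a := by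
  classical
  have ha : ¬ π ∣ a := fun h => hb (by
    have h2 := dvd_sub h hab
    have h3 : a - (a - b) = b := by ring
    rwa [h3] at h2)
  have hap : a ^ p = a * a ^ (p - 1) := by
    rw [← pow_succ', Nat.sub_add_cancel hp]
  -- `b a^(p-1) ≡ a^p mod π`
  have hDa : π ∣ a ^ p - b * a ^ (p - 1) := by
    have h0 : a ^ p - b * a ^ (p - 1) = (a - b) * a ^ (p - 1) := by rw [hap]; ring
    rw [h0]
    exact Dvd.dvd.mul_right hab _
  let J : Ideal R :=
    { carrier := {r | ∃ y, b * a ^ (p - 1) ∣ y ^ p ∧ π ∣ y - r * a}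
      zero_mem' := ⟨0, by rw [zero_pow hp.ne']; exact dvd_zero _, by simp⟩
      add_mem' := by
        rintro r r' ⟨y, hy, hy'⟩ ⟨z, hz, hz'⟩
        refine ⟨y + z, (locpowIdeal p hp (b * a ^ (p - 1))).add_mem hy hz, ?_⟩
        have h0 : y + z - (r + r') * a = (y - r * a) + (z - r' * a) := by ring
        rw [h0]
        exact dvd_add hy' hz'
      smul_mem' := by
        rintro c r ⟨y, hy, hy'⟩
        refine ⟨c * y, (locpowIdeal p hp (b * a ^ (p - 1))).mul_mem_left c hy, ?_⟩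
        have h0 : c * y - c • r * a = c * (y - r * a) := by rw [smul_eq_mul]; ring
        rw [h0]
        exact Dvd.dvd.mul_left hy' c }
  have hJmem : ∀ r, r ∈ J ↔ ∃ y, b * a ^ (p - 1) ∣ y ^ p ∧ π ∣ y - r * a := fun r => Iff.rfl
  have hJ : J = ⊤ := by
    by_contra hne
    obtain ⟨x, hxmax, hJx⟩ := Ideal.exists_le_maximal J hne
    have hπJ : π ∈ J := (hJmem π).mpr
      ⟨0, by rw [zero_pow hp.ne']; exact dvd_zero _, ⟨-a, by ring⟩⟩
    have hπx : π ∈ x := hJx hπJ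
    have hxprime : x.IsPrime := hxmax.isPrime
    obtain ⟨y₀, e₁, e₂, he₁, he₂, he⟩ :=
      globpow_local ι hι hfrac π hπ p hp a b ha hb hdiv x hπx
    -- `(e₂ y₀)^p = (e₂^(p-1) e₁) * D`
    have hpow : (e₂ * y₀) ^ p = e₂ ^ (p - 1) * e₁ * (b * a ^ (p - 1)) := by
      have h0 : e₂ ^ p = e₂ ^ (p - 1) * e₂ := by
        rw [← pow_succ, Nat.sub_add_cancel hp]
      rw [mul_pow, h0, mul_assoc, he]
      ring
    -- pass to the quotient `R / π`
    set mk := Ideal.Quotient.mk (Ideal.span {π}) with hmk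
    have hmk0 : ∀ z : R, mk z = 0 ↔ π ∣ z := fun z => by
      rw [hmk, Ideal.Quotient.eq_zero_iff_mem, Ideal.mem_span_singleton]
    have hq : mk a ^ p ∣ mk (e₂ * y₀) ^ p := by
      refine ⟨mk (e₂ ^ (p - 1) * e₁), ?_⟩
      rw [← map_pow, ← map_pow, ← map_mul, hpow, ← sub_eq_zero, ← map_sub, hmk0]
      have h0 : e₂ ^ (p - 1) * e₁ * (b * a ^ (p - 1)) - a ^ p * (e₂ ^ (p - 1) * e₁)
          = -(e₂ ^ (p - 1) * e₁) * (a ^ p - b * a ^ (p - 1)) := by ring
      rw [h0]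
      exact Dvd.dvd.mul_left hDa _
    obtain ⟨rbar, hrbar⟩ := (IsIntegrallyClosed.pow_dvd_pow_iff hp.ne').mp hq
    obtain ⟨r, hr'⟩ := Ideal.Quotient.mk_surjective rbar
    have hrbar' : mk (e₂ * y₀) = mk a * mk r := by rw [hrbar, ← hr']
    have hr : π ∣ e₂ * y₀ - r * a := by
      rw [← hmk0, map_sub, hrbar', map_mul, mul_comm (mk r), sub_self]
    have hrJ : r ∈ J := (hJmem r).mpr ⟨e₂ * y₀, ⟨e₂ ^ (p - 1) * e₁, by rw [hpow]; ring⟩, hr⟩
    have hrx : r ∈ x := hJx hrJ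
    -- `r^p ≡ e₂^(p-1) e₁ mod π`
    have hmka : mk a ≠ 0 := fun h0 => ha ((hmk0 a).mp h0)
    have hrp : mk r ^ p = mk (e₂ ^ (p - 1) * e₁) := by
      have h1 : mk (e₂ * y₀) ^ p = mk (e₂ ^ (p - 1) * e₁) * mk a ^ p := by
        rw [← map_pow, ← map_pow, ← map_mul, hpow, ← sub_eq_zero, ← map_sub, hmk0]
        have h0 : e₂ ^ (p - 1) * e₁ * (b * a ^ (p - 1)) - e₂ ^ (p - 1) * e₁ * a ^ p
            = -(e₂ ^ (p - 1) * e₁) * (a ^ p - b * a ^ (p - 1)) := by ring
        rw [h0]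
        exact Dvd.dvd.mul_left hDa _
      have h2 : mk (e₂ * y₀) ^ p = mk r ^ p * mk a ^ p := by
        rw [hrbar', mul_pow, mul_comm]
      exact mul_right_cancel₀ (pow_ne_zero p hmka) (h2.symm.trans h1)
    have hdvd : π ∣ r ^ p - e₂ ^ (p - 1) * e₁ := by
      rw [← hmk0, map_sub, map_pow, hrp, sub_self]
    have hmem : e₂ ^ (p - 1) * e₁ ∈ x := by
      have h1 : r ^ p - e₂ ^ (p - 1) * e₁ ∈ x :=
        (Ideal.span_singleton_le_iff_mem _).mpr hπx (Ideal.mem_span_singleton.mpr hdvd)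
      have h2 : r ^ p ∈ x := x.pow_mem_of_mem hrx p hp
      have h3 : e₂ ^ (p - 1) * e₁ = r ^ p - (r ^ p - e₂ ^ (p - 1) * e₁) := by ring
      rw [h3]
      exact x.sub_mem h2 h1
    rcases hxprime.mem_or_mem hmem with h | h
    · exact he₂ (hxprime.mem_of_pow_mem _ h)
    · exact he₁ h
  have h1 : (1 : R) ∈ J := hJ ▸ Submodule.mem_top
  obtain ⟨y, hy, hy'⟩ := (hJmem 1).mp h1
  rw [one_mul] at hy'
  exact ⟨y, hy, hy'⟩

end Global

end Fermat.Agent.S18.H30
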