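/-
S18 / wave 4 (helper30): single-chart lemmas for the E-free Kummer–Cech theorem `cech_charts`
(K2-C of core 2; reports #1138/#1213), in the vocabulary `Dv / IsPrimeElt / IsLocAt` of
`H47/Basic.lean`.

* `chartloc_isPrimeElt`: `ϖ` is a prime element of `C` when `C / ϖ` is a domain.
* `chartloc_mem_of_pow_mul_mem`: `C` is `ϖ`-saturated in its localisation `O` at `ϖ`.
* `chartloc_mem_of_pow_mem`: an integrally closed chart is root closed in its fraction field.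
* `powModF C O f m`: the module `{h ∈ O | f * h ^ m ∈ C}` ("sections of `f^(-1/m)`").
* `chartloc_exists_oneUnit`: a GLOBAL element `h ≡ 1 mod ϖ` with `f * h ^ m ∈ C`
  (from `globpow_global`).
-/
import Fermat.Agent.S18.H47.LocalIdem
import Fermat.Agent.S18.H63.LocGlue
import Fermat.Agent.S18.H30.GlobalUnit

set_option autoImplicit false

noncomputable section

namespace Fermat.Agent.S18.H30

open Fermat.Agent.S18.H47

variable {A₀ : Type*} [CommRing A₀] {F : Type*} [Field F] [Algebra A₀ F]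

section OneChart

variable {ϖ : A₀} {C O : Subalgebra A₀ F}

/-- `ϖ` is a prime element of `C` when `C / ϖ` is a domain. -/
theorem chartloc_isPrimeElt (hϖ0 : algebraMap A₀ F ϖ ≠ 0)
    (hdom : IsDomain (↥C ⧸ Ideal.span {algebraMap A₀ ↥C ϖ})) : IsPrimeElt ϖ C := by
  have hπ0 : algebraMap A₀ ↥C ϖ ≠ 0 := fun h0 => hϖ0 (by
    have h1 := congrArg (Subtype.val : ↥C → F) h0
    simpa using h1)
  have hprime : Prime (algebraMap A₀ ↥C ϖ) :=
    (Ideal.span_singleton_prime hπ0).mp ((Ideal.Quotient.isDomain_iff_prime _).mp hdom)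
  refine ⟨?_, ?_⟩
  · intro h
    have h1 : algebraMap A₀ ↥C ϖ ∣ (1 : ↥C) := (dv_iff_dvd (1 : ↥C)).mp h
    exact hprime.not_isUnit (isUnit_of_dvd_one h1)
  · intro a ha b hb hab
    have h1 : algebraMap A₀ ↥C ϖ ∣ ((⟨a, ha⟩ : ↥C) * ⟨b, hb⟩) :=
      (dv_iff_dvd ((⟨a, ha⟩ : ↥C) * ⟨b, hb⟩)).mp hab
    rcases hprime.dvd_or_dvd h1 with h | h
    · exact Or.inl ((dv_iff_dvd (⟨a, ha⟩ : ↥C)).mpr h)
    · exact Or.inr ((dv_iff_dvd (⟨b, hb⟩ : ↥C)).mpr h)

/-- `C` is `ϖ`-saturated in its localisation at `ϖ`. -/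
theorem chartloc_mem_of_mul_mem (hloc : IsLocAt ϖ C O) (hprime : IsPrimeElt ϖ C)
    (hϖ0 : algebraMap A₀ F ϖ ≠ 0) {x : F} (hx : x ∈ O) (h : algebraMap A₀ F ϖ * x ∈ C) :
    x ∈ C := by
  obtain ⟨d, hd, hd'⟩ := hloc.dv_of_smul hprime h hx (by rw [Algebra.smul_def])
  rw [Algebra.smul_def] at hd'
  rw [mul_left_cancel₀ hϖ0 hd']
  exact hd

theorem chartloc_mem_of_pow_mul_mem (hloc : IsLocAt ϖ C O) (hprime : IsPrimeElt ϖ C)
    (hϖ0 : algebraMap A₀ F ϖ ≠ 0) (n : ℕ) (x : F) (hx : x ∈ O)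
    (h : algebraMap A₀ F ϖ ^ n * x ∈ C) : x ∈ C := by
  induction n with
  | zero => simpa using h
  | succ n ih =>
    apply ih
    apply chartloc_mem_of_mul_mem hloc hprime hϖ0
      (O.mul_mem (O.pow_mem (O.algebraMap_mem ϖ) n) hx)
    rw [← mul_assoc, ← pow_succ']
    exact h

/-- An integrally closed chart is root closed in its field of fractions. -/
theorem chartloc_mem_of_pow_mem [IsIntegrallyClosed ↥C]
    (hfrac : ∀ x : F, ∃ a ∈ C, ∃ b ∈ C, b ≠ 0 ∧ x = a / b) {m : ℕ} (hm : m ≠ 0) (t : F)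
    (h : t ^ m ∈ C) : t ∈ C := by
  have := isFractionRing_of_frac C hfrac
  have hint : IsIntegral ↥C t := by
    refine ⟨Polynomial.X ^ m - Polynomial.C (⟨t ^ m, h⟩ : ↥C),
      Polynomial.monic_X_pow_sub_C _ hm, ?_⟩
    rw [Polynomial.eval₂_sub, Polynomial.eval₂_X_pow, Polynomial.eval₂_C]
    exact sub_self _
  obtain ⟨y, hy⟩ := IsIntegrallyClosed.isIntegral_iff.mp hint
  rw [← hy]
  exact y.2

end OneChart

section PowMod

/-- The module `{h ∈ O | f * h ^ m ∈ C}` for a root-closed `C`. -/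
def powModF (C O : Subalgebra A₀ F) (f : F) (m : ℕ) (hm : m ≠ 0)
    (hroot : ∀ t : F, t ^ m ∈ C → t ∈ C) : Submodule A₀ F where
  carrier := {h | h ∈ O ∧ f * h ^ m ∈ C}
  zero_mem' := ⟨O.zero_mem, by rw [zero_pow hm, mul_zero]; exact C.zero_mem⟩
  add_mem' := by
    rintro h h' ⟨hO, hC⟩ ⟨hO', hC'⟩
    refine ⟨O.add_mem hO hO', ?_⟩
    rw [add_pow, Finset.mul_sum]
    refine Subalgebra.sum_mem _ fun i hi => ?_
    have hi' : i ≤ m := Nat.lt_succ_iff.mp (Finset.mem_range.mp hi)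
    have key : f * (h ^ i * h' ^ (m - i)) ∈ C := by
      apply hroot
      have h2 : f ^ m = f ^ i * f ^ (m - i) := by rw [← pow_add, Nat.add_sub_cancel' hi']
      have h1 : (f * (h ^ i * h' ^ (m - i))) ^ m = (f * h ^ m) ^ i * (f * h' ^ m) ^ (m - i) := by
        rw [mul_pow, mul_pow, mul_pow, mul_pow, h2, ← pow_mul, ← pow_mul, ← pow_mul, ← pow_mul,
          mul_comm i m, mul_comm (m - i) m]
        ring
      rw [h1]
      exact C.mul_mem (C.pow_mem hC i) (C.pow_mem hC' (m - i))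
    have h3 : f * (h ^ i * h' ^ (m - i) * (m.choose i : F))
        = (f * (h ^ i * h' ^ (m - i))) * (m.choose i : F) := by ring
    rw [h3]
    exact C.mul_mem key (natCast_mem C _)
  smul_mem' := by
    rintro r h ⟨hO, hC⟩
    refine ⟨O.smul_mem hO r, ?_⟩
    have h0 : f * (r • h) ^ m = algebraMap A₀ F (r ^ m) * (f * h ^ m) := by
      rw [Algebra.smul_def, mul_pow, map_pow]
      ring
    rw [h0]
    exact C.mul_mem (C.algebraMap_mem _) hC

variable {ϖ : A₀} {C O : Subalgebra A₀ F} {f : F} {m : ℕ} {hm : m ≠ 0}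
  {hroot : ∀ t : F, t ^ m ∈ C → t ∈ C}

theorem mem_powModF {h : F} : h ∈ powModF C O f m hm hroot ↔ h ∈ O ∧ f * h ^ m ∈ C := Iff.rfl

theorem mul_mem_powModF (hCO : C ≤ O) {c h : F} (hc : c ∈ C)
    (hh : h ∈ powModF C O f m hm hroot) : c * h ∈ powModF C O f m hm hroot := by
  refine ⟨O.mul_mem (hCO hc) hh.1, ?_⟩
  have h0 : f * (c * h) ^ m = c ^ m * (f * h ^ m) := by ring
  rw [h0]
  exact C.mul_mem (C.pow_mem hc m) hh.2

theorem powModF_sat
    (hsat : ∀ (n : ℕ) (x : F), x ∈ O → algebraMap A₀ F ϖ ^ n * x ∈ C → x ∈ C) (hf : f ∈ O)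
    {x : F} (hx : x ∈ O) (h : algebraMap A₀ F ϖ * x ∈ powModF C O f m hm hroot) :
    x ∈ powModF C O f m hm hroot := by
  refine ⟨hx, hsat m _ (O.mul_mem hf (O.pow_mem hx m)) ?_⟩
  have h0 : algebraMap A₀ F ϖ ^ m * (f * x ^ m) = f * (algebraMap A₀ F ϖ * x) ^ m := by ring
  rw [h0]
  exact h.2

end PowMod

end Fermat.Agent.S18.H30
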