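/-
S18 / wave 4 (helper30): on one chart `C` (noetherian, integrally closed, `C / ϖ` Dedekind) a
function `f ≡ 1 mod ϖ` whose divisor is divisible by `m` has a GLOBAL `m`-th root of its inverse
up to `C`:  `h` with `f * h ^ m ∈ C` and `h ≡ 1 mod ϖ`  (step (T1) of reports #1138/#1213).
Subalgebra form of `globpow_global`.
-/
import Fermat.Agent.S18.H30.ChartLoc

set_option autoImplicit false

noncomputable section

namespace Fermat.Agent.S18.H30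

open Fermat.Agent.S18.H47

variable {A₀ : Type*} [CommRing A₀] [IsDomain A₀] {F : Type*} [Field F] [Algebra A₀ F]

/-- **Global one-unit solution on a chart.**  Output: `h` with `f * h ^ m ∈ C`, and a
denominator `e ∈ C ∖ ϖ C` with `h * e ∈ C` and `(h - 1) * e ∈ ϖ C`. -/
theorem chartloc_exists_oneUnit [IsDiscreteValuationRing A₀] [FaithfulSMul A₀ F]
    (ϖ : A₀) (hϖ : Irreducible ϖ) (m : ℕ) (hm : m ≠ 0)
    (C : Subalgebra A₀ F) [IsIntegrallyClosed ↥C] [IsNoetherianRing ↥C]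
    (hfrac : ∀ x : F, ∃ a ∈ C, ∃ b ∈ C, b ≠ 0 ∧ x = a / b)
    (hded : IsDedekindDomain (↥C ⧸ Ideal.span {algebraMap A₀ ↥C ϖ}))
    (f : F) (hf : ∃ a ∈ C, ∃ b ∈ C, (¬ ∃ c ∈ C, b = ϖ • c) ∧ (∃ c ∈ C, a - b = ϖ • c) ∧
      f * b = a)
    (hdiv : ∀ V : ValuationSubring F, (∀ a : A₀, a ≠ 0 → (algebraMap A₀ F a)⁻¹ ∈ V) →
      IsDiscreteValuationRing V → ∃ t : F, t ≠ 0 ∧ f / t ^ m ∈ V ∧ (f / t ^ m)⁻¹ ∈ V) :
    ∃ h : F, f * h ^ m ∈ C ∧ ∃ e ∈ C, (¬ ∃ c ∈ C, e = ϖ • c) ∧ h * e ∈ C ∧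
      ∃ c ∈ C, (h - 1) * e = ϖ • c := by
  classical
  obtain ⟨a, haC, b, hbC, hb, ⟨g, hgC, hg⟩, hfab⟩ := hf
  set π : ↥C := algebraMap A₀ ↥C ϖ with hπdef
  have hπF : (π : F) = algebraMap A₀ F ϖ := rfl
  have hϖF : algebraMap A₀ F ϖ ≠ 0 := fun h0 =>
    hϖ.ne_zero (FaithfulSMul.algebraMap_injective A₀ F (by rw [h0, map_zero]))
  have hπ0 : π ≠ 0 := fun h0 => hϖF (by rw [← hπF, h0]; rfl)
  have hπ : Prime π := by
    have : IsDomain (↥C ⧸ Ideal.span {π}) := hded.toIsDomain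
    exact (Ideal.span_singleton_prime hπ0).mp ((Ideal.Quotient.isDomain_iff_prime _).mp this)
  have hb' : ¬ π ∣ (⟨b, hbC⟩ : ↥C) := fun h => hb ((dv_iff_dvd (⟨b, hbC⟩ : ↥C)).mpr h)
  have hab' : π ∣ (⟨a, haC⟩ : ↥C) - ⟨b, hbC⟩ :=
    (dv_iff_dvd ((⟨a, haC⟩ : ↥C) - ⟨b, hbC⟩)).mp ⟨g, hgC, hg⟩
  have hb0 : b ≠ 0 := by
    rintro rfl
    exact hb ⟨0, C.zero_mem, by rw [smul_zero]⟩
  -- `a` is not divisible by `ϖ` either
  have ha : ¬ ∃ c ∈ C, a = ϖ • c := by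
    rintro ⟨c, hc, hac⟩
    refine hb ⟨c - g, C.sub_mem hc hgC, ?_⟩
    rw [smul_sub, ← hac, ← hg]
    ring
  have ha0 : a ≠ 0 := by
    rintro rfl
    exact ha ⟨0, C.zero_mem, by rw [smul_zero]⟩
  have hf' : f = a / b := by rw [eq_div_iff hb0, hfab]
  obtain ⟨y, ⟨d, hd⟩, ⟨c, hc⟩⟩ := globpow_global (R := ↥C) (F := F) (C.val : ↥C →+* F)
    Subtype.val_injective
    (fun z => by
      obtain ⟨c, hc, d, hd, hd0, rfl⟩ := hfrac z
      exact ⟨⟨c, hc⟩, ⟨d, hd⟩, fun h0 => hd0 (congrArg Subtype.val h0), div_mul_cancel₀ c hd0⟩)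
    π hπ m (Nat.pos_of_ne_zero hm) ⟨a, haC⟩ ⟨b, hbC⟩ hb' hab'
    (fun V hV hπV hdvr => by
      have h := hdiv V (fun a₀ ha₀ => by
        obtain ⟨n, u, rfl⟩ := IsDiscreteValuationRing.eq_unit_mul_pow_irreducible ha₀ hϖ
        have h1 : (algebraMap A₀ F (↑u * ϖ ^ n))⁻¹
            = algebraMap A₀ F (↑u⁻¹ : A₀) * ((algebraMap A₀ F ϖ)⁻¹) ^ n := by
          have h2 : algebraMap A₀ F (↑u : A₀) * algebraMap A₀ F (↑u⁻¹ : A₀) = 1 := by
            rw [← map_mul, Units.mul_inv, map_one]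
          rw [map_mul, map_pow, mul_inv, inv_pow]
          congr 1
          exact inv_eq_of_mul_eq_one_right h2
        rw [h1]
        exact mul_mem (hV (algebraMap A₀ ↥C (↑u⁻¹ : A₀))) (pow_mem hπV n)) hdvr
      rw [hf'] at h
      exact h)
  -- translate to `F`
  have hdF : (y : F) ^ m = b * a ^ (m - 1) * (d : F) := by
    have h1 := congrArg (Subtype.val : ↥C → F) hd
    simpa using h1
  have hcF : (y : F) - a = algebraMap A₀ F ϖ * (c : F) := by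
    have h1 := congrArg (Subtype.val : ↥C → F) hc
    rw [← hπF]
    simpa using h1
  have hap : a ^ m = a * a ^ (m - 1) := by
    rw [← pow_succ', Nat.sub_add_cancel (Nat.pos_of_ne_zero hm)]
  refine ⟨(y : F) / a, ?_, a, haC, ha, ?_, (c : F), c.2, ?_⟩
  · have h0 : f * ((y : F) / a) ^ m = (d : F) := by
      rw [hf', div_pow, hdF, hap]
      field_simp
    rw [h0]
    exact d.2
  · rw [div_mul_cancel₀ _ ha0]
    exact y.2
  · rw [sub_mul, div_mul_cancel₀ _ ha0, one_mul, hcF, Algebra.smul_def]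

end Fermat.Agent.S18.H30
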